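import Mathlib.RingTheory.Valuation.ValuationSubring

/-!
# RIBET wall at `p`, route G-p, leaf COUNT-W by discriminants (helper733), part 1:
weak approximation for finitely many discrete valuation subrings with a common uniformiser

`L` a field, `ϖ : L`.  `IsDiscW ϖ W` : the valuation subring `W` of `L` is discrete with
uniformiser `ϖ` (elementwise form).

* `IsDiscW.le_of_le`     : discrete valuation subrings with the same uniformiser are incomparable;
* `exists_sep_two`       : two distinct ones are separated by an element;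
* `exists_sep`           : `a` with `a⁻¹ ∈ 𝔪_{W₁}`, `a ∈ 𝔪_W` for the other `W` of a finite set;
* `exists_idem`          : `e ≡ 1` at `W₁`, `e ≡ 0` at the other `W`;
* `exists_delta`         : `e ≡ 1` at the `W ∈ Rep`, `e ≡ 0` at the `W ∈ S \ Rep`.

Mathlib only.
-/

set_option autoImplicit false

namespace Fermat.Agent.Ribet.H733

section Approx

variable {L : Type*} [Field L]

/-- `W` is a discrete valuation subring of `L` with uniformiser `ϖ` (elementwise form). -/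
def IsDiscW (ϖ : L) (W : ValuationSubring L) : Prop :=
  ϖ ∈ W.nonunits ∧ (∀ a ∈ W.nonunits, ∃ b ∈ W, a = ϖ * b) ∧ ∀ b : L, ∃ k : ℕ, ϖ ^ k * b ∈ W

theorem nonunits_mul_mem (W : ValuationSubring L) {a b : L} (ha : a ∈ W.nonunits) (hb : b ∈ W) :
    a * b ∈ W.nonunits := by
  rw [ValuationSubring.mem_nonunits_iff] at ha ⊢
  rw [← ValuationSubring.valuation_le_one_iff] at hb
  rw [map_mul]
  calc W.valuation a * W.valuation b ≤ W.valuation a * 1 := by gcongr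
    _ = W.valuation a := mul_one _
    _ < 1 := ha

theorem mem_mul_nonunits (W : ValuationSubring L) {a b : L} (ha : a ∈ W) (hb : b ∈ W.nonunits) :
    a * b ∈ W.nonunits := by
  rw [mul_comm]
  exact nonunits_mul_mem W hb ha

theorem mem_of_nonunits (W : ValuationSubring L) {a : L} (ha : a ∈ W.nonunits) : a ∈ W := by
  rw [ValuationSubring.mem_nonunits_iff] at ha
  rw [← ValuationSubring.valuation_le_one_iff]
  exact ha.le

theorem one_notMem_nonunits (W : ValuationSubring L) : (1 : L) ∉ W.nonunits := by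
  rw [ValuationSubring.mem_nonunits_iff, map_one]
  exact lt_irrefl _

theorem inv_mem_nonunits_of_notMem (W : ValuationSubring L) {x : L} (hx : x ∉ W) :
    x⁻¹ ∈ W.nonunits :=
  (ValuationSubring.inv_mem_nonunits_iff W).2 (Or.inr hx)

theorem notMem_of_inv_mem_nonunits (W : ValuationSubring L) {x : L} (hx0 : x ≠ 0)
    (hx : x⁻¹ ∈ W.nonunits) : x ∉ W :=
  ((ValuationSubring.inv_mem_nonunits_iff W).1 hx).resolve_left hx0

theorem pow_mem_nonunits (W : ValuationSubring L) {a : L} (ha : a ∈ W.nonunits) {r : ℕ}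
    (hr : 0 < r) : a ^ r ∈ W.nonunits := by
  obtain ⟨d, rfl⟩ : ∃ d, r = d + 1 := ⟨r - 1, by omega⟩
  rw [pow_succ]
  exact mem_mul_nonunits W (pow_mem (mem_of_nonunits W ha) d) ha

/-- `1 + a` is a unit of `W` for `a ∈ 𝔪_W`. -/
theorem one_add_inv_mem (W : ValuationSubring L) {a : L} (ha : a ∈ W.nonunits) :
    (1 + a)⁻¹ ∈ W ∧ 1 + a ≠ 0 := by
  rw [ValuationSubring.mem_nonunits_iff] at ha
  have h1 : W.valuation (1 + a) = 1 := Valuation.map_one_add_of_lt _ ha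
  have h0 : 1 + a ≠ 0 := by
    intro h
    rw [h, map_zero] at h1
    exact zero_ne_one h1
  refine ⟨?_, h0⟩
  rw [← ValuationSubring.valuation_le_one_iff, map_inv₀, h1, inv_one]

/-- For `a⁻¹ ∈ 𝔪_W`, `a ≠ 0`: `(1 + a)⁻¹ ∈ 𝔪_W` and `a * (1 + a)⁻¹` is a unit of `W`. -/
theorem one_add_inv_mem_nonunits (W : ValuationSubring L) {a : L} (ha0 : a ≠ 0)
    (ha : a⁻¹ ∈ W.nonunits) :
    (1 + a)⁻¹ ∈ W.nonunits ∧ 1 + a ≠ 0 ∧ a * (1 + a)⁻¹ ∈ W ∧ (a * (1 + a)⁻¹)⁻¹ ∈ W := by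
  obtain ⟨h1, h2⟩ := one_add_inv_mem W ha
  have h3 : 1 + a = a * (1 + a⁻¹) := by
    rw [mul_add, mul_one, mul_inv_cancel₀ ha0, add_comm]
  have h0 : 1 + a ≠ 0 := by
    rw [h3]
    exact mul_ne_zero ha0 h2
  have h4 : (1 + a)⁻¹ = a⁻¹ * (1 + a⁻¹)⁻¹ := by
    rw [h3, mul_inv]
  have h5 : a * (1 + a)⁻¹ = (1 + a⁻¹)⁻¹ := by
    rw [h4, ← mul_assoc, mul_inv_cancel₀ ha0, one_mul]
  refine ⟨?_, h0, ?_, ?_⟩
  · rw [h4]
    exact nonunits_mul_mem W ha h1
  · rw [h5]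
    exact h1
  · rw [h5, inv_inv]
    exact W.add_mem _ _ W.one_mem (mem_of_nonunits W ha)

/-- Discrete valuation subrings with the same uniformiser are incomparable. -/
theorem IsDiscW.le_of_le {ϖ : L} {W₁ W' : ValuationSubring L} (h₁ : IsDiscW ϖ W₁)
    (hϖ' : ϖ ∈ W'.nonunits) (hle : W₁ ≤ W') : W' ≤ W₁ := by
  classical
  intro x hx
  by_contra hx1
  have hex : ∃ k : ℕ, ϖ ^ k * x ∈ W₁ := h₁.2.2 x
  have hk := Nat.find_spec hex
  have hk0 : Nat.find hex ≠ 0 := by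
    intro h0
    rw [h0, pow_zero, one_mul] at hk
    exact hx1 hk
  obtain ⟨j, hj⟩ : ∃ j, Nat.find hex = j + 1 := ⟨Nat.find hex - 1, by omega⟩
  have hmin : ϖ ^ j * x ∉ W₁ := Nat.find_min hex (by omega)
  rw [hj] at hk
  set y := ϖ ^ j * x with hy
  have hy0 : y ≠ 0 := by
    intro h
    rw [h] at hmin
    exact hmin W₁.zero_mem
  have hyinv : y⁻¹ ∈ W₁.nonunits := inv_mem_nonunits_of_notMem W₁ hmin
  obtain ⟨b, hb, hyb⟩ := h₁.2.1 _ hyinv
  have hyW' : y ∈ W' := W'.mul_mem _ _ (pow_mem (mem_of_nonunits W' hϖ') j) hx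
  have h1 : ϖ * y ∈ W'.nonunits := nonunits_mul_mem W' hϖ' hyW'
  have h2 : (ϖ * y) * b = 1 := by
    have : ϖ * b * y = 1 := by
      rw [← hyb, inv_mul_cancel₀ hy0]
    rw [← this]
    ring
  have h3 : (ϖ * y) * b ∈ W'.nonunits := nonunits_mul_mem W' h1 (hle hb)
  rw [h2] at h3
  exact one_notMem_nonunits W' h3

/-- Two distinct discrete valuation subrings with the same uniformiser are separated by an
element. -/
theorem exists_sep_two {ϖ : L} {W₁ W' : ValuationSubring L} (h₁ : IsDiscW ϖ W₁)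
    (h' : IsDiscW ϖ W') (hne : W₁ ≠ W') :
    ∃ b : L, b ≠ 0 ∧ b⁻¹ ∈ W₁.nonunits ∧ b ∈ W'.nonunits := by
  have hn1 : ¬ W₁ ≤ W' := fun h => hne (le_antisymm h (h₁.le_of_le h'.1 h))
  have hn2 : ¬ W' ≤ W₁ := fun h => hne (le_antisymm (h'.le_of_le h₁.1 h) h)
  obtain ⟨x, hx1, hx2⟩ := SetLike.not_le_iff_exists.1 hn1
  obtain ⟨y, hy1, hy2⟩ := SetLike.not_le_iff_exists.1 hn2
  have hx0 : x ≠ 0 := by
    rintro rfl
    exact hx2 W'.zero_mem
  have hy0 : y ≠ 0 := by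
    rintro rfl
    exact hy2 W₁.zero_mem
  refine ⟨y * x⁻¹, mul_ne_zero hy0 (inv_ne_zero hx0), ?_, ?_⟩
  · rw [mul_inv, inv_inv]
    exact nonunits_mul_mem W₁ (inv_mem_nonunits_of_notMem W₁ hy2) hx1
  · exact mem_mul_nonunits W' hy1 (inv_mem_nonunits_of_notMem W' hx2)

/-- A uniform exponent for finitely many valuation subrings. -/
theorem exists_pow_mul_mem {ϖ : L} (T : Finset (ValuationSubring L))
    (hT : ∀ W ∈ T, IsDiscW ϖ W) (b : L) : ∃ k : ℕ, ∀ W ∈ T, ϖ ^ k * b ∈ W := by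
  classical
  induction T using Finset.induction_on with
  | empty => exact ⟨0, fun W hW => absurd hW (Finset.notMem_empty W)⟩
  | insert W' T hW' ih =>
    obtain ⟨k, hk⟩ := ih (fun W hW => hT W (Finset.mem_insert_of_mem hW))
    obtain ⟨k', hk'⟩ := (hT W' (Finset.mem_insert_self W' T)).2.2 b
    refine ⟨k + k', fun W hW => ?_⟩
    rcases Finset.mem_insert.1 hW with rfl | hW
    · have : ϖ ^ (k + k') * b = ϖ ^ k * (ϖ ^ k' * b) := by rw [pow_add]; ring
      rw [this]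
      exact W.mul_mem _ _
        (pow_mem (mem_of_nonunits W (hT W (Finset.mem_insert_self W T)).1) k) hk'
    · have : ϖ ^ (k + k') * b = ϖ ^ k' * (ϖ ^ k * b) := by rw [pow_add]; ring
      rw [this]
      exact W.mul_mem _ _
        (pow_mem (mem_of_nonunits W (hT W (Finset.mem_insert_of_mem hW)).1) k') (hk W hW)

/-- `a ^ r * b ∈ 𝔪_W` for `a ∈ 𝔪_W` and `ϖ ^ k * b ∈ W`, `k < r`. -/
theorem pow_mul_mem_nonunits {ϖ : L} {W : ValuationSubring L} (hW : IsDiscW ϖ W)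
    {a b : L} (ha : a ∈ W.nonunits) {k r : ℕ} (hk : ϖ ^ k * b ∈ W) (hr : k < r) :
    a ^ r * b ∈ W.nonunits := by
  obtain ⟨a₁, ha₁, rfl⟩ := hW.2.1 a ha
  obtain ⟨d, rfl⟩ : ∃ d, r = k + (d + 1) := ⟨r - k - 1, by omega⟩
  have : (ϖ * a₁) ^ (k + (d + 1)) * b = ϖ ^ (d + 1) * (a₁ ^ (k + (d + 1)) * (ϖ ^ k * b)) := by
    rw [mul_pow, pow_add ϖ k (d + 1)]
    ring
  rw [this]
  exact nonunits_mul_mem W (pow_mem_nonunits W hW.1 (Nat.succ_pos d))
    (W.mul_mem _ _ (pow_mem ha₁ _) hk)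

/-- **Separation**: an element with a pole at `W₁` and a zero at every other `W ∈ S`. -/
theorem exists_sep {ϖ : L} (hϖ0 : ϖ ≠ 0) (S : Finset (ValuationSubring L))
    (hS : ∀ W ∈ S, IsDiscW ϖ W) (W₁ : ValuationSubring L) (h₁ : IsDiscW ϖ W₁) :
    ∃ a : L, a ≠ 0 ∧ a⁻¹ ∈ W₁.nonunits ∧ ∀ W ∈ S, W ≠ W₁ → a ∈ W.nonunits := by
  classical
  induction S using Finset.induction_on with
  | empty =>
    refine ⟨ϖ⁻¹, inv_ne_zero hϖ0, ?_, fun W hW => absurd hW (Finset.notMem_empty W)⟩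
    rw [inv_inv]
    exact h₁.1
  | insert W' T hW' ih =>
    have hT : ∀ W ∈ T, IsDiscW ϖ W := fun W hW => hS W (Finset.mem_insert_of_mem hW)
    have h' : IsDiscW ϖ W' := hS W' (Finset.mem_insert_self W' T)
    obtain ⟨a, ha0, ha1, haT⟩ := ih hT
    by_cases hWW : W' = W₁
    · refine ⟨a, ha0, ha1, fun W hW hne => ?_⟩
      rcases Finset.mem_insert.1 hW with rfl | hW
      · exact absurd hWW hne
      · exact haT W hW hne
    obtain ⟨b, hb0, hb1, hb'⟩ := exists_sep_two h₁ h' (Ne.symm hWW)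
    obtain ⟨k, hk⟩ := exists_pow_mul_mem T hT b
    by_cases haW' : a ∈ W'.nonunits
    · refine ⟨a, ha0, ha1, fun W hW hne => ?_⟩
      rcases Finset.mem_insert.1 hW with rfl | hW
      · exact haW'
      · exact haT W hW hne
    by_cases haW'' : a ∈ W'
    · -- `a` is a unit of `W'`
      refine ⟨a ^ (k + 1) * b, mul_ne_zero (pow_ne_zero _ ha0) hb0, ?_, fun W hW hne => ?_⟩
      · rw [mul_inv, ← inv_pow]
        exact mem_mul_nonunits W₁ (pow_mem (mem_of_nonunits W₁ ha1) _) hb1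
      · rcases Finset.mem_insert.1 hW with rfl | hW
        · exact mem_mul_nonunits W (pow_mem haW'' _) hb'
        · exact pow_mul_mem_nonunits (hT W hW) (haT W hW hne) (hk W hW) (Nat.lt_succ_self k)
    · -- `a` has a pole at `W'`
      have hainv' : a⁻¹ ∈ W'.nonunits := inv_mem_nonunits_of_notMem W' haW''
      have hr0 : a ^ (k + 1) ≠ 0 := pow_ne_zero _ ha0
      have hpinv₁ : (a ^ (k + 1))⁻¹ ∈ W₁.nonunits := by
        rw [← inv_pow]
        exact pow_mem_nonunits W₁ ha1 (Nat.succ_pos k)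
      have hpinv' : (a ^ (k + 1))⁻¹ ∈ W'.nonunits := by
        rw [← inv_pow]
        exact pow_mem_nonunits W' hainv' (Nat.succ_pos k)
      obtain ⟨-, hne1, hu₁, hu₁'⟩ := one_add_inv_mem_nonunits W₁ hr0 hpinv₁
      obtain ⟨-, -, hu', -⟩ := one_add_inv_mem_nonunits W' hr0 hpinv'
      refine ⟨a ^ (k + 1) * (1 + a ^ (k + 1))⁻¹ * b,
        mul_ne_zero (mul_ne_zero hr0 (inv_ne_zero hne1)) hb0, ?_, fun W hW hne => ?_⟩
      · rw [mul_inv]
        exact mem_mul_nonunits W₁ hu₁' hb1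
      · rcases Finset.mem_insert.1 hW with rfl | hW
        · exact mem_mul_nonunits W hu' hb'
        · have h1 : a ^ (k + 1) ∈ W.nonunits :=
            pow_mem_nonunits W (haT W hW hne) (Nat.succ_pos k)
          have h2 := (one_add_inv_mem W h1).1
          have h3 : a ^ (k + 1) * (1 + a ^ (k + 1))⁻¹ * b =
              (a ^ (k + 1) * b) * (1 + a ^ (k + 1))⁻¹ := by ring
          rw [h3]
          exact nonunits_mul_mem W
            (pow_mul_mem_nonunits (hT W hW) (haT W hW hne) (hk W hW) (Nat.lt_succ_self k)) h2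

/-- **Idempotent modulo the maximal ideals**: `e ≡ 1` at `W₁`, `e ≡ 0` at the other `W ∈ S`. -/
theorem exists_idem {ϖ : L} (hϖ0 : ϖ ≠ 0) (S : Finset (ValuationSubring L))
    (hS : ∀ W ∈ S, IsDiscW ϖ W) (W₁ : ValuationSubring L) (h₁ : IsDiscW ϖ W₁) :
    ∃ e : L, e - 1 ∈ W₁.nonunits ∧ ∀ W ∈ S, W ≠ W₁ → e ∈ W.nonunits := by
  obtain ⟨a, ha0, ha1, haS⟩ := exists_sep hϖ0 S hS W₁ h₁
  obtain ⟨h1, h2, -, -⟩ := one_add_inv_mem_nonunits W₁ ha0 ha1
  refine ⟨a * (1 + a)⁻¹, ?_, fun W hW hne => ?_⟩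
  · have : a * (1 + a)⁻¹ - 1 = (-1) * (1 + a)⁻¹ := by
      field_simp
      ring
    rw [this]
    exact mem_mul_nonunits W₁ (W₁.neg_mem _ W₁.one_mem) h1
  · exact nonunits_mul_mem W (haS W hW hne) (one_add_inv_mem W (haS W hW hne)).1

/-- **Approximation**: `e ≡ 1` at the `W ∈ Rep`, `e ≡ 0` at the `W ∈ S \ Rep`. -/
theorem exists_delta {ϖ : L} (hϖ0 : ϖ ≠ 0) (S : Finset (ValuationSubring L))
    (hS : ∀ W ∈ S, IsDiscW ϖ W) (Rep : Finset (ValuationSubring L)) (hRep : Rep ⊆ S) :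
    ∃ e : L, (∀ W ∈ Rep, e - 1 ∈ W.nonunits) ∧ ∀ W ∈ S, W ∉ Rep → e ∈ W.nonunits := by
  classical
  have hch : ∀ W₁ : ValuationSubring L, ∃ e : L, W₁ ∈ Rep →
      (e - 1 ∈ W₁.nonunits ∧ ∀ W ∈ S, W ≠ W₁ → e ∈ W.nonunits) := by
    intro W₁
    by_cases h : W₁ ∈ Rep
    · obtain ⟨e, he⟩ := exists_idem hϖ0 S hS W₁ (hS W₁ (hRep h))
      exact ⟨e, fun _ => he⟩
    · exact ⟨0, fun h' => absurd h' h⟩
  choose ε hε using hch
  refine ⟨∑ W₁ ∈ Rep, ε W₁, fun W hW => ?_, fun W hW hWR => ?_⟩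
  · rw [← Finset.add_sum_erase Rep ε hW]
    have : ε W + ∑ x ∈ Rep.erase W, ε x - 1 = (ε W - 1) + ∑ x ∈ Rep.erase W, ε x := by ring
    rw [this]
    refine W.nonunits.add_mem' ((hε W hW).1) ?_
    refine Finset.sum_induction _ (fun z => z ∈ W.nonunits) (fun _ _ => W.nonunits.add_mem')
      W.nonunits.zero_mem' fun W₁ hW₁ => ?_
    exact (hε W₁ (Finset.mem_of_mem_erase hW₁)).2 W (hRep hW)
      (Ne.symm (Finset.ne_of_mem_erase hW₁))
  · refine Finset.sum_induction _ (fun z => z ∈ W.nonunits) (fun _ _ => W.nonunits.add_mem')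
      W.nonunits.zero_mem' fun W₁ hW₁ => ?_
    refine (hε W₁ hW₁).2 W hW ?_
    rintro rfl
    exact hWR hW₁

end Approx

end Fermat.Agent.Ribet.H733
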