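import Fermat.Agent.Ribet.H733.WSheets
import Fermat.Agent.A2.H733.CountCore

/-!
# RIBET wall at `p`, route G-p, leaf COUNT-W by discriminants (helper733), part 5:
COUNT for one chart of a Kummer cover of ARBITRARY exponent

`count_upstairs_gen` : `A2.H733.count_upstairs` with the Kummer hypothesis replaced by
`het : ∀ π, Prime π → EtaleAt π F L`.

`countAt_of_chart_gen` : `H12.CountAt L w t {algebraMap F L t}` for a finite Galois cover `L / F`
generated by `m`-th roots `y i ^ m = g i` with `m ∣ div (g i)` on the generic fibre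
(`H12.HorDiv R m (g i)`), `m > 0` ARBITRARY (e.g. `m = p` the residue characteristic), from
`SheetsConclusion` and the reducedness of the special fibre of the chart of the cover.
NO splitting hypothesis on the `g i` beyond `SheetsConclusion`, NO purity.

Proof: the δ-count `H973.sheets_unique_at_ideal` needs `disc (B'/w) ~ disc (B/w) ^ h`, which
`H492.exists_bases_associated_discr` derives from étaleness at every prime element `π` of
`Λ = R[t]`: horizontal `π` do not divide `m` (characteristic `0`), so Kummer theory applies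
(`H492.etaleAt_of_kummer`); `π ~ w` is totally split (`etaleAt_of_sheetsConclusion`).
-/

set_option autoImplicit false
set_option linter.unusedSectionVars false
set_option linter.style.haveILetI false
set_option maxHeartbeats 1600000
set_option synthInstance.maxHeartbeats 400000

namespace Fermat.Agent.Ribet.H733

open Polynomial Module
open Fermat.Agent.A2 Fermat.Agent.A2.H12 Fermat.Agent.A2.A3.H492 Fermat.Agent.A2.H733
open Fermat.Agent.S18.H138 (chart mem_chart)

section Assoc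

variable {Λ : Type*} [CommRing Λ] {F L : Type*} [Field F] [Field L] [Algebra F L]
  [Algebra Λ F] [Algebra Λ L]

theorem locInt_of_associated {π w : Λ} (h : Associated π w) {A : Type*} [CommRing A]
    [Algebra Λ A] {y : A} (hy : LocInt w y) : LocInt π y := by
  obtain ⟨s, hs, hsy⟩ := hy
  exact ⟨s, fun hd => hs (h.symm.dvd.trans hd), hsy⟩

theorem etaleAt_of_associated {π w : Λ} (h : Associated π w) (he : EtaleAt w F L) :
    EtaleAt π F L := by
  obtain ⟨c, hc, hd⟩ := he
  exact ⟨c, fun j => locInt_of_associated h (hc j), locInt_of_associated h hd⟩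

end Assoc

section Up

universe u

variable {Λ K : Type*} {F L : Type u} [CommRing Λ] [IsDomain Λ] [IsIntegrallyClosed Λ]
  [IsNoetherianRing Λ] [UniqueFactorizationMonoid Λ]
  [Field K] [Algebra Λ K] [IsFractionRing Λ K] [CharZero K]
  [Field F] [Algebra K F] [Algebra Λ F] [IsScalarTower Λ K F] [FiniteDimensional K F]
  [Field L] [Algebra F L] [Algebra K L] [Algebra Λ L] [IsScalarTower K F L]
  [IsScalarTower Λ K L] [IsScalarTower Λ F L] [FiniteDimensional F L] [IsGalois F L]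
  {B B' : Type*} [CommRing B] [CommRing B'] [Algebra Λ B] [Algebra Λ B'] [Algebra B B']
  [IsScalarTower Λ B B']
  [Algebra B F] [IsScalarTower Λ B F] [IsIntegralClosure B Λ F]
  [Algebra B' L] [IsScalarTower Λ B' L] [IsIntegralClosure B' Λ L]
  [MulSemiringAction (L ≃ₐ[F] L) B'] [SMulCommClass (L ≃ₐ[F] L) B B']
  [Algebra.IsInvariant B B' (L ≃ₐ[F] L)]

/-- **COUNT upstairs for a cover étale in codimension one.** -/
theorem count_upstairs_gen {w : Λ} (hw : Prime w) [IsPrincipalIdealRing (Λ ⧸ Ideal.span {w})]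
    (het : ∀ π : Λ, Prime π → EtaleAt π F L)
    (b₀ : Fin (finrank K F) → F) (d₀ : Λ) (hb₀ : ∀ i, IsIntegral Λ (b₀ i))
    (hd₀ : algebraMap Λ K d₀ = Algebra.discr K b₀) (hwd : ¬ w ∣ d₀)
    (p₁ p₂ : Ideal B) [p₁.IsPrime] [p₂.IsPrime]
    (hinf : p₁ ⊓ p₂ = (Ideal.span {w}).map (algebraMap Λ B)) (hrad : (p₁ ⊔ p₂).IsRadical)
    (hpP₁ : p₁.comap (algebraMap Λ B) = Ideal.span {w})
    (hpP₂ : p₂.comap (algebraMap Λ B) = Ideal.span {w})
    (hnle₁ : ¬ p₁ ≤ p₂) (hnle₂ : ¬ p₂ ≤ p₁)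
    (Q₁ Q₂ : Ideal B')
    (hQp₁ : Q₁.comap (algebraMap B B') = p₁) (hQp₂ : Q₂.comap (algebraMap B B') = p₂)
    (hQs₁ : ∀ b' : B', ∃ b : B, b' - algebraMap B B' b ∈ Q₁)
    (hQs₂ : ∀ b' : B', ∃ b : B, b' - algebraMap B B' b ∈ Q₂)
    (hred : ∀ x : B', (∀ g : L ≃ₐ[F] L, g • x ∈ Q₁) → (∀ g : L ≃ₐ[F] L, g • x ∈ Q₂) →
      x ∈ (Ideal.span {w}).map (algebraMap Λ B'))
    (𝔫 : Ideal B') (h𝔫 : 𝔫 ≠ ⊤) (g h : L ≃ₐ[F] L) :
    ((∀ x : B', g • x ∈ Q₁ → x ∈ 𝔫) → (∀ x : B', h • x ∈ Q₁ → x ∈ 𝔫) → g = h) ∧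
    ((∀ x : B', g • x ∈ Q₂ → x ∈ 𝔫) → (∀ x : B', h • x ∈ Q₂ → x ∈ 𝔫) → g = h) := by
  classical
  haveI hprime : (Ideal.span {w} : Ideal Λ).IsPrime := (Ideal.span_singleton_prime hw.ne_zero).2 hw
  haveI : IsDomain (Λ ⧸ Ideal.span {w}) := Ideal.Quotient.isDomain _
  haveI hsepF : Algebra.IsSeparable K F := Algebra.IsSeparable.of_integral K F
  haveI : CharZero F := charZero_of_injective_algebraMap (algebraMap K F).injective
  haveI hsepL : Algebra.IsSeparable F L := Algebra.IsSeparable.of_integral F L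
  obtain ⟨bC, bC', hass, hne⟩ := exists_bases_associated_discr (K := K) hw
    (redDataOfModel Λ F w B) (redDataOfModel Λ L w B') rfl het
  have hne' := hne b₀ d₀ hb₀ hd₀ hwd
  letI : Fintype (L ≃ₐ[F] L) := Fintype.ofFinite _
  have hcard : Fintype.card (L ≃ₐ[F] L) = finrank F L := by
    rw [← Nat.card_eq_fintype_card]
    exact IsGalois.card_aut_eq_finrank F L
  have hrank : Fintype.card (Fin (finrank K L)) =
      Fintype.card (L ≃ₐ[F] L) * Fintype.card (Fin (finrank K F)) := by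
    rw [Fintype.card_fin, Fintype.card_fin, hcard, mul_comm]
    exact (Module.finrank_mul_finrank K F L).symm
  have hdvd : Algebra.discr (Λ ⧸ Ideal.span {w}) bC' ∣
      Algebra.discr (Λ ⧸ Ideal.span {w}) bC ^ Fintype.card (L ≃ₐ[F] L) := by
    rw [hcard]
    exact hass.dvd
  exact Fermat.Agent.A2.H973.sheets_unique_at_ideal (Ideal.span {w}) p₁ p₂ hinf hrad hpP₁ hpP₂
    hnle₁ hnle₂ Q₁ Q₂ hQp₁ hQp₂ hQs₁ hQs₂ hred bC bC' hrank hne' hdvd 𝔫 h𝔫 g h

end Up

section Core

variable {R E F : Type} [CommRing R] [IsDomain R] [IsDiscreteValuationRing R]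
  [Field E] [CharZero E] [Algebra R E] [IsFractionRing R E]
  [Field F] [Algebra E F] [Algebra R F] [IsScalarTower R E F]

/-- **COUNT for one chart, arbitrary exponent.** -/
theorem countAt_of_chart_gen (w : R) (hw : Irreducible w) (m : ℕ) (hm0 : 0 < m)
    (t : F) (ht : Transcendental E t)
    [hfin : FiniteDimensional (IntermediateField.adjoin E ({t} : Set F)) F]
    (B : Subalgebra R F)
    (hB : ∀ f : F, f ∈ B ↔ IsIntegral (Algebra.adjoin R ({t} : Set F)) f)
    (c : SSChart w B) (hsep : SepCoord R E t B)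
    (hdisc : ∀ V : ValuationSubring F, IsSheet w t V → ∀ f : F, f ≠ 0 →
      ∃ (n : ℤ) (u : F), u ∈ V ∧ u⁻¹ ∈ V ∧ f = algebraMap R F w ^ n * u)
    (L : Type) [Field L] [Algebra F L] [Algebra R L] [IsScalarTower R F L]
    [FiniteDimensional F L] [IsGalois F L]
    (hgen : ∃ (n : ℕ) (y : Fin n → L) (g : Fin n → F),
      (∀ i, g i ≠ 0) ∧ (∀ i, y i ^ m = algebraMap F L (g i)) ∧
      IntermediateField.adjoin F (Set.range y) = ⊤ ∧ ∀ i, HorDiv R m (g i))
    (hS : SheetsConclusion L w t)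
    (hred : ∀ b ∈ chart R ({algebraMap F L t} : Set L),
      (∀ W : ValuationSubring L, IsSheet w (algebraMap F L t) W → b ∈ W.nonunits) →
      ∃ b₁ ∈ chart R ({algebraMap F L t} : Set L), b = algebraMap R L w * b₁) :
    CountAt L w t {algebraMap F L t} := by
  classical
  have hinjRE : Function.Injective (algebraMap R E) := IsFractionRing.injective R E
  have hxR : Transcendental R t := ht.restrictScalars hinjRE
  have hwp : Prime w := hw.prime
  -- the sheets of the base and one sheet of the cover over each of them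
  obtain ⟨V₁, V₂, hS₁, hS₂, hV₁, hV₂, hcls, hfr₁, hfr₂⟩ :=
    exists_base_sheets w hw t ht B hB c hdisc
  obtain ⟨W₁, hW₁, hWV₁⟩ := hS.exists_over V₁ hS₁
  obtain ⟨W₂, hW₂, hWV₂⟩ := hS.exists_over V₂ hS₂
  haveI := c.prime₁
  haveI := c.prime₂
  haveI := c.normal₁
  haveI := c.normal₂
  -- instances
  letI algΛK : Algebra (Algebra.adjoin R ({t} : Set F))
      (IntermediateField.adjoin E ({t} : Set F)) := algAdjoin R E t
  haveI : IsFractionRing (Algebra.adjoin R ({t} : Set F))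
      (IntermediateField.adjoin E ({t} : Set F)) := isFractionRing_adjoin R E t
  haveI : IsScalarTower (Algebra.adjoin R ({t} : Set F))
      (IntermediateField.adjoin E ({t} : Set F)) F := IsScalarTower.of_algebraMap_eq (fun _ => rfl)
  haveI : IsScalarTower (Algebra.adjoin R ({t} : Set F))
      (IntermediateField.adjoin E ({t} : Set F)) L := IsScalarTower.of_algebraMap_eq (fun _ => rfl)
  haveI : IsIntegrallyClosed (Algebra.adjoin R ({t} : Set F)) :=
    Fermat.Agent.S18.H138.isIntegrallyClosed_adjoin_singleton hxR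
  haveI : IsNoetherianRing (Algebra.adjoin R ({t} : Set F)) :=
    Fermat.Agent.S18.H138.isNoetherianRing_adjoin_singleton hxR
  haveI : UniqueFactorizationMonoid (Algebra.adjoin R ({t} : Set F)) :=
    Fermat.Agent.A2.A3.H492.uniqueFactorizationMonoid_adjoin hxR
  letI algΛB : Algebra (Algebra.adjoin R ({t} : Set F)) B := (baseMap hB).toAlgebra
  letI algΛB' : Algebra (Algebra.adjoin R ({t} : Set F))
      (chart R ({algebraMap F L t} : Set L)) := (coverMap L t).toAlgebra
  letI algBB' : Algebra B (chart R ({algebraMap F L t} : Set L)) := (chartMap L hB).toAlgebra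
  letI act : MulSemiringAction (L ≃ₐ[F] L) (chart R ({algebraMap F L t} : Set L)) :=
    galAction R L t
  haveI : IsScalarTower (Algebra.adjoin R ({t} : Set F)) B
      (chart R ({algebraMap F L t} : Set L)) := IsScalarTower.of_algebraMap_eq (fun _ => rfl)
  haveI : IsScalarTower (Algebra.adjoin R ({t} : Set F)) B F :=
    IsScalarTower.of_algebraMap_eq (fun _ => rfl)
  haveI : IsScalarTower (Algebra.adjoin R ({t} : Set F))
      (chart R ({algebraMap F L t} : Set L)) L := IsScalarTower.of_algebraMap_eq (fun _ => rfl)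
  haveI : IsIntegralClosure B (Algebra.adjoin R ({t} : Set F)) F := isIntegralClosure_chart hB
  haveI : IsIntegralClosure (chart R ({algebraMap F L t} : Set L))
      (Algebra.adjoin R ({t} : Set F)) L := isIntegralClosure_cover R L t
  haveI : SMulCommClass (L ≃ₐ[F] L) B (chart R ({algebraMap F L t} : Set L)) :=
    smulCommClass_chart (L := L) hB
  haveI : Algebra.IsInvariant B (chart R ({algebraMap F L t} : Set L)) (L ≃ₐ[F] L) :=
    isInvariant_chart (L := L) hB
  have hwΛ : Prime (algebraMap R (Algebra.adjoin R ({t} : Set F)) w) :=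
    Fermat.Agent.A2.A3.H492.prime_algebraMap_adjoin hxR hwp
  have hmax : (Ideal.span {w} : Ideal R).IsMaximal := by
    rw [← hw.maximalIdeal_eq]
    exact IsLocalRing.maximalIdeal.isMaximal R
  haveI : IsPrincipalIdealRing (Algebra.adjoin R ({t} : Set F) ⧸
      Ideal.span {algebraMap R (Algebra.adjoin R ({t} : Set F)) w}) :=
    Fermat.Agent.A2.A3.H492.isPrincipalIdealRing_quotient_adjoin hxR hmax
  haveI halg : Algebra.IsAlgebraic (Algebra.adjoin R ({t} : Set F)) F :=
    ⟨Fermat.Agent.A2.H373.isAlgebraic_adjoin_of_finite (R := R) (E := E) t⟩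
  haveI halgL : Algebra.IsAlgebraic (Algebra.adjoin R ({t} : Set F)) L :=
    Algebra.IsAlgebraic.trans (Algebra.adjoin R ({t} : Set F)) F L
  have hmR : (m : R) ≠ 0 := by
    intro h0
    have h1 : ((m : ℕ) : E) = 0 := by
      rw [← map_natCast (algebraMap R E), h0, map_zero]
    exact hm0.ne' (Nat.cast_eq_zero.1 h1)
  -- étaleness in codimension one
  obtain ⟨n, y, g, hg0, hyg, hadj, hhor⟩ := hgen
  have het : ∀ π : Algebra.adjoin R ({t} : Set F), Prime π → EtaleAt π F L := by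
    intro π hπ
    by_cases hπw : π ∣ algebraMap R (Algebra.adjoin R ({t} : Set F)) w
    · exact etaleAt_of_associated (hπ.associated_of_dvd hwΛ hπw)
        (etaleAt_of_sheetsConclusion hxR hwp hS ⟨W₁, hW₁⟩)
    · refine etaleAt_of_kummer (K := IntermediateField.adjoin E ({t} : Set F)) hπ m ?_
        (Set.range y) hadj ?_
      · have := not_dvd_algebraMap_of_not_dvd hπ hw hπw hmR
        rwa [map_natCast] at this
      · rintro G ⟨i, rfl⟩
        refine ⟨?_, g i, (hyg i).symm, fun V hVd h1 h2 => ?_⟩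
        · intro h0
          have h1 := hyg i
          rw [h0, zero_pow hm0.ne'] at h1
          exact hg0 i ((map_eq_zero (algebraMap F L)).1 h1.symm)
        · refine hhor i V hVd fun r hr => ?_
          have h3 := h2 (algebraMap R (Algebra.adjoin R ({t} : Set F)) r)
            (not_dvd_algebraMap_of_not_dvd hπ hw hπw hr)
          exact ⟨h1 (algebraMap R (Algebra.adjoin R ({t} : Set F)) r), h3⟩
  -- the separating coordinate
  obtain ⟨n₀, b₀, hb₀B, -, hn₀, d, hd, hdd⟩ := hsep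
  subst hn₀
  have hb₀ : ∀ i, IsIntegral (Algebra.adjoin R ({t} : Set F)) (b₀ i) := fun i =>
    (hB _).1 (hb₀B i)
  have hd₀ : algebraMap (Algebra.adjoin R ({t} : Set F))
      (IntermediateField.adjoin E ({t} : Set F)) (Fermat.Agent.A2.A3.H492.adjoinEquiv hxR d) =
      Algebra.discr (IntermediateField.adjoin E ({t} : Set F)) b₀ := by
    apply Subtype.ext
    show aeval t d = _
    rw [hdd]
    rfl
  have hwd : ¬ algebraMap R (Algebra.adjoin R ({t} : Set F)) w ∣
      Fermat.Agent.A2.A3.H492.adjoinEquiv hxR d := by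
    refine Fermat.Agent.A2.A3.H492.not_dvd_aeval_of_coeff hxR w d ?_
    by_contra hcon
    rw [not_exists] at hcon
    apply hd
    ext i
    rw [coeff_map, coeff_zero]
    have h1 : w ∣ d.coeff i := not_not.1 (hcon i)
    rw [IsLocalRing.residue_eq_zero_iff, hw.maximalIdeal_eq, Ideal.mem_span_singleton]
    exact h1
  -- the components and the sheets over them
  have hinf : c.p₁ ⊓ c.p₂ = (Ideal.span {algebraMap R (Algebra.adjoin R ({t} : Set F)) w}).map
      (algebraMap (Algebra.adjoin R ({t} : Set F)) B) := by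
    rw [Ideal.map_span, Set.image_singleton]
    exact c.inf_eq
  have hpP₁ : c.p₁.comap (algebraMap (Algebra.adjoin R ({t} : Set F)) B) =
      Ideal.span {algebraMap R (Algebra.adjoin R ({t} : Set F)) w} :=
    comap_baseMap_eq hB c.p₁ V₁ hS₁ hV₁
  have hpP₂ : c.p₂.comap (algebraMap (Algebra.adjoin R ({t} : Set F)) B) =
      Ideal.span {algebraMap R (Algebra.adjoin R ({t} : Set F)) w} :=
    comap_baseMap_eq hB c.p₂ V₂ hS₂ hV₂
  have hc₁ : ∀ b : B, (b : F) ∈ (W₁.comap (algebraMap F L)).nonunits ↔ b ∈ c.p₁ := by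
    rw [hWV₁]
    exact hV₁
  have hc₂ : ∀ b : B, (b : F) ∈ (W₂.comap (algebraMap F L)).nonunits ↔ b ∈ c.p₂ := by
    rw [hWV₂]
    exact hV₂
  have hQp₁ := comap_centreOn_cover hB hW₁ c.p₁ hc₁
  have hQp₂ := comap_centreOn_cover hB hW₂ c.p₂ hc₂
  have hQs₁ := exists_sub_mem_centreOn hB hW₁ c.p₁ hc₁ (by rw [hWV₁]; exact hfr₁)
    (hS.resdeg W₁ hW₁)
  have hQs₂ := exists_sub_mem_centreOn hB hW₂ c.p₂ hc₂ (by rw [hWV₂]; exact hfr₂)
    (hS.resdeg W₂ hW₂)
  -- every sheet of the cover is a conjugate of `W₁` or of `W₂`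
  have hconj : ∀ W : ValuationSubring L, IsSheet w (algebraMap F L t) W →
      (W.comap (algebraMap F L) = V₁ ∧ ∃ σ : L ≃ₐ[F] L, ∀ b, b ∈ W.nonunits ↔ σ b ∈ W₁.nonunits) ∨
      (W.comap (algebraMap F L) = V₂ ∧
        ∃ σ : L ≃ₐ[F] L, ∀ b, b ∈ W.nonunits ↔ σ b ∈ W₂.nonunits) := by
    intro W hW
    rcases hcls _ hW.comap_algebraMap with h | h
    · left
      obtain ⟨σ, hσ⟩ := hS.trans W W₁ hW hW₁ (by rw [h, hWV₁])
      exact ⟨h, σ, Fermat.Agent.A2.H12.nonunits_iff_of_mem_iff (σ : L ≃+* L) W W₁ hσ⟩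
    · right
      obtain ⟨σ, hσ⟩ := hS.trans W W₂ hW hW₂ (by rw [h, hWV₂])
      exact ⟨h, σ, Fermat.Agent.A2.H12.nonunits_iff_of_mem_iff (σ : L ≃+* L) W W₂ hσ⟩
  -- the special fibre of the chart of the cover is reduced
  have hredU : ∀ x : chart R ({algebraMap F L t} : Set L),
      (∀ σ : L ≃ₐ[F] L, σ • x ∈ Fermat.Agent.A2.H373.centreOn W₁
        (chart R ({algebraMap F L t} : Set L)) (chart_le_sheet hW₁)) →
      (∀ σ : L ≃ₐ[F] L, σ • x ∈ Fermat.Agent.A2.H373.centreOn W₂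
        (chart R ({algebraMap F L t} : Set L)) (chart_le_sheet hW₂)) →
      x ∈ (Ideal.span {algebraMap R (Algebra.adjoin R ({t} : Set F)) w}).map
        (algebraMap (Algebra.adjoin R ({t} : Set F)) (chart R ({algebraMap F L t} : Set L))) := by
    intro x h1 h2
    have hall : ∀ W : ValuationSubring L, IsSheet w (algebraMap F L t) W →
        (x : L) ∈ W.nonunits := by
      intro W hW
      rcases hconj W hW with ⟨-, σ, hσ⟩ | ⟨-, σ, hσ⟩
      · exact (hσ _).2 ((Fermat.Agent.A2.H373.mem_centreOn _ _ _ _).1 (h1 σ))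
      · exact (hσ _).2 ((Fermat.Agent.A2.H373.mem_centreOn _ _ _ _).1 (h2 σ))
    obtain ⟨b₁, hb₁, hxb⟩ := hred x x.2 hall
    rw [Ideal.map_span, Set.image_singleton, Ideal.mem_span_singleton]
    refine ⟨⟨b₁, hb₁⟩, Subtype.ext ?_⟩
    show (x : L) = algebraMap F L (algebraMap R F w) * b₁
    rw [hxb, ← IsScalarTower.algebraMap_apply R F L]
  -- COUNT upstairs
  have key := fun (𝔫 : Ideal (chart R ({algebraMap F L t} : Set L))) (h𝔫 : 𝔫 ≠ ⊤)
      (σ σ' : L ≃ₐ[F] L) =>
    count_upstairs_gen (K := IntermediateField.adjoin E ({t} : Set F)) hwΛ het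
      b₀ (Fermat.Agent.A2.A3.H492.adjoinEquiv hxR d) hb₀ hd₀ hwd c.p₁ c.p₂ hinf
      c.transversal hpP₁ hpP₂ c.not_le₁₂ c.not_le₂₁ _ _ hQp₁ hQp₂ hQs₁ hQs₂ hredU 𝔫 h𝔫 σ σ'
  -- conclusion
  intro 𝔫 h𝔫 W W' hW hW' hcomap h1 h2
  rcases hcls _ hW.comap_algebraMap with h | h
  · obtain ⟨σ, hσ⟩ := hS.trans W W₁ hW hW₁ (by rw [h, hWV₁])
    obtain ⟨σ', hσ'⟩ := hS.trans W' W₁ hW' hW₁ (by rw [← hcomap, h, hWV₁])
    have hσn := Fermat.Agent.A2.H12.nonunits_iff_of_mem_iff (σ : L ≃+* L) W W₁ hσ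
    have hσn' := Fermat.Agent.A2.H12.nonunits_iff_of_mem_iff (σ' : L ≃+* L) W' W₁ hσ'
    have hσσ' : σ = σ' := (key 𝔫 h𝔫.ne_top σ σ').1
      (fun x hx => h1 x ((hσn _).2 ((Fermat.Agent.A2.H373.mem_centreOn _ _ _ _).1 hx)))
      (fun x hx => h2 x ((hσn' _).2 ((Fermat.Agent.A2.H373.mem_centreOn _ _ _ _).1 hx)))
    subst hσσ'
    ext b
    exact (hσ b).trans (hσ' b).symm
  · obtain ⟨σ, hσ⟩ := hS.trans W W₂ hW hW₂ (by rw [h, hWV₂])
    obtain ⟨σ', hσ'⟩ := hS.trans W' W₂ hW' hW₂ (by rw [← hcomap, h, hWV₂])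
    have hσn := Fermat.Agent.A2.H12.nonunits_iff_of_mem_iff (σ : L ≃+* L) W W₂ hσ
    have hσn' := Fermat.Agent.A2.H12.nonunits_iff_of_mem_iff (σ' : L ≃+* L) W' W₂ hσ'
    have hσσ' : σ = σ' := (key 𝔫 h𝔫.ne_top σ σ').2
      (fun x hx => h1 x ((hσn _).2 ((Fermat.Agent.A2.H373.mem_centreOn _ _ _ _).1 hx)))
      (fun x hx => h2 x ((hσn' _).2 ((Fermat.Agent.A2.H373.mem_centreOn _ _ _ _).1 hx)))
    subst hσσ'
    ext b
    exact (hσ b).trans (hσ' b).symm

end Core

end Fermat.Agent.Ribet.H733
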