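import Fermat.Agent.Ribet.H733.WSplit
import Fermat.Agent.A2.A3.H492.Etale
import Fermat.Agent.A2.A3.H492.KummerHyp
import Mathlib.RingTheory.Valuation.LocalSubring

/-!
# RIBET wall at `p`, route G-p, leaf COUNT-W by discriminants (helper733), part 3:
a totally split Galois cover is étale at the prime element `w`

`Λ` a noetherian domain, `w ∈ Λ` a prime element, `F ⊆ L` fields over `Λ`, `L / F` finite Galois,
`L` algebraic over `Λ`.  `overSet w L` = the valuation subrings of `L` lying over `Λ_(w)`.

* `isIntegral_of_forall_mem` : an element lying in every valuation subring containing the image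
  of `A` is integral over `A`;
* `locInt_of_forall_mem` : an element lying in every `W ∈ overSet w L` is integral over `Λ`
  locally at `w` (`H492.LocInt`);
* `etaleAt_of_split` : if `overSet w L` is finite, `w` is a uniformiser of every `W` in it and
  the Galois group acts simply transitively on it relative to a set `Rep` of representatives
  (total splitting), then `H492.EtaleAt w F L`.

NO hypothesis on the residue characteristic: this is the vertical input of the δ-count
(`H492.exists_bases_associated_discr`) for WILD Kummer covers.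
-/

set_option autoImplicit false
set_option linter.unusedSectionVars false
set_option linter.style.haveILetI false

namespace Fermat.Agent.Ribet.H733

open Module Fermat.Agent.A2.A3.H492

section Integral

variable {A L : Type*} [CommRing A] [Field L] [Algebra A L]

/-- An element lying in every valuation subring containing the image of `A` is integral
over `A`. -/
theorem isIntegral_of_forall_mem {y : L}
    (h : ∀ V : ValuationSubring L, (∀ a : A, algebraMap A L a ∈ V) → y ∈ V) :
    IsIntegral A y := by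
  by_contra hy
  have hy' : y ∉ (integralClosure A L).toSubring := hy
  obtain ⟨V, hV, hyV⟩ := Subring.exists_le_valuationSubring_of_isIntegrallyClosedIn hy'
  exact hyV (h V fun a => hV ((integralClosure A L).algebraMap_mem a))

end Integral

section Over

variable {Λ : Type*} [CommRing Λ] {L : Type*} [Field L] [Algebra Λ L]

/-- The valuation subrings of `L` lying over `Λ_(w)`. -/
def overSet (w : Λ) (L : Type*) [Field L] [Algebra Λ L] : Set (ValuationSubring L) :=
  {W | (∀ a : Λ, algebraMap Λ L a ∈ W) ∧ (∀ a : Λ, ¬ w ∣ a → (algebraMap Λ L a)⁻¹ ∈ W) ∧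
    algebraMap Λ L w ∈ W.nonunits}

variable [IsDomain Λ] [WfDvdMonoid Λ] [Algebra.IsAlgebraic Λ L]

/-- Bounded denominators: `w ^ k * b ∈ W` for a valuation subring over `Λ_(w)`. -/
theorem exists_pow_mul_mem_of_over (hinj : Function.Injective (algebraMap Λ L)) {w : Λ}
    (hw : Prime w) (W : ValuationSubring L) (h1 : ∀ a : Λ, algebraMap Λ L a ∈ W)
    (h2 : ∀ a : Λ, ¬ w ∣ a → (algebraMap Λ L a)⁻¹ ∈ W) (b : L) :
    ∃ k : ℕ, algebraMap Λ L w ^ k * b ∈ W := by
  obtain ⟨a, ha0, hab⟩ := IsAlgebraic.exists_integral_multiple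
    (Algebra.IsAlgebraic.isAlgebraic (R := Λ) b)
  have h3 : a • b ∈ W := mem_valuationSubring_of_isIntegral W h1 hab
  obtain ⟨k, a', ha', rfl⟩ := WfDvdMonoid.max_power_factor ha0 hw.irreducible
  refine ⟨k, ?_⟩
  have hz : algebraMap Λ L a' ≠ 0 := by
    intro h0
    have : a' = 0 := hinj (by rw [h0, map_zero])
    exact ha' (this ▸ dvd_zero w)
  have : algebraMap Λ L w ^ k * b = (algebraMap Λ L a')⁻¹ * (((w ^ k * a' : Λ)) • b) := by
    rw [Algebra.smul_def, map_mul, map_pow]
    field_simp
  rw [this]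
  exact W.mul_mem _ _ (h2 a' ha') h3

/-- A valuation subring containing `Λ_(w)` in which `w` is invertible is everything. -/
theorem mem_of_inv_mem (hinj : Function.Injective (algebraMap Λ L)) {w : Λ}
    (hw : Prime w) (W : ValuationSubring L) (h1 : ∀ a : Λ, algebraMap Λ L a ∈ W)
    (h2 : ∀ a : Λ, ¬ w ∣ a → (algebraMap Λ L a)⁻¹ ∈ W) (hwinv : (algebraMap Λ L w)⁻¹ ∈ W)
    (b : L) : b ∈ W := by
  obtain ⟨k, hk⟩ := exists_pow_mul_mem_of_over hinj hw W h1 h2 b
  have hw0 : algebraMap Λ L w ≠ 0 := fun h0 => hw.ne_zero (hinj (by rw [h0, map_zero]))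
  have : b = (algebraMap Λ L w)⁻¹ ^ k * (algebraMap Λ L w ^ k * b) := by
    rw [inv_pow]
    field_simp
  rw [this]
  exact W.mul_mem _ _ (pow_mem hwinv k) hk

/-- Every valuation subring of `L` containing `Λ_(w)` is in `overSet w L` or is `L` itself. -/
theorem mem_of_forall_overSet (hinj : Function.Injective (algebraMap Λ L)) {w : Λ}
    (hw : Prime w) {y : L} (hy : ∀ W ∈ overSet w L, y ∈ W) (V : ValuationSubring L)
    (h1 : ∀ a : Λ, algebraMap Λ L a ∈ V)
    (h2 : ∀ a : Λ, ¬ w ∣ a → (algebraMap Λ L a)⁻¹ ∈ V) : y ∈ V := by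
  by_cases hwn : algebraMap Λ L w ∈ V.nonunits
  · exact hy V ⟨h1, h2, hwn⟩
  · refine mem_of_inv_mem hinj hw V h1 h2 ?_ y
    by_contra hinv
    apply hwn
    have := inv_mem_nonunits_of_notMem V hinv
    rwa [inv_inv] at this

/-- **Integrality locally at `w`**, from membership in the valuation subrings over `Λ_(w)`. -/
theorem locInt_of_forall_mem (hinj : Function.Injective (algebraMap Λ L)) {w : Λ}
    (hw : Prime w) {y : L} (hy : ∀ W ∈ overSet w L, y ∈ W) : LocInt w y := by
  haveI hP : (Ideal.span {w}).IsPrime := (Ideal.span_singleton_prime hw.ne_zero).2 hw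
  let A := Localization.AtPrime (Ideal.span {w})
  have hunit : ∀ t : (Ideal.span {w}).primeCompl, IsUnit (algebraMap Λ L t) := fun t => by
    refine IsUnit.mk0 _ fun h0 => t.2 ?_
    have : (t : Λ) = 0 := hinj (by rw [h0, map_zero])
    rw [this]
    exact Ideal.zero_mem _
  letI algAL : Algebra A L := (IsLocalization.lift (S := A) hunit).toAlgebra
  have hAL : ∀ a : Λ, algebraMap A L (algebraMap Λ A a) = algebraMap Λ L a := fun a =>
    IsLocalization.lift_eq hunit a
  haveI : IsScalarTower Λ A L := IsScalarTower.of_algebraMap_eq fun a => (hAL a).symm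
  refine LocInt.of_isIntegral_atPrime A (isIntegral_of_forall_mem fun V hV => ?_)
  refine mem_of_forall_overSet hinj hw hy V (fun a => ?_) (fun a ha => ?_)
  · rw [← hAL]
    exact hV _
  · have hu : IsUnit (algebraMap Λ A a) := IsLocalization.map_units A
      (⟨a, fun h => ha (Ideal.mem_span_singleton.1 h)⟩ : (Ideal.span {w}).primeCompl)
    obtain ⟨b, hb⟩ := hu.exists_right_inv
    have h5 : algebraMap Λ L a * algebraMap A L b = 1 := by
      rw [← hAL, ← map_mul, hb, map_one]
    rw [← eq_inv_of_mul_eq_one_right h5]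
    exact hV b

end Over

section Etale

variable {Λ : Type*} [CommRing Λ] [IsDomain Λ] [WfDvdMonoid Λ]
  {F L : Type*} [Field F] [Field L] [Algebra F L] [Algebra Λ F] [Algebra Λ L]
  [IsScalarTower Λ F L] [FiniteDimensional F L] [IsGalois F L] [Algebra.IsAlgebraic Λ L]

/-- `LocInt` descends along `F → L`. -/
theorem locInt_of_algebraMap {w : Λ} {z : F} (h : LocInt w (algebraMap F L z)) : LocInt w z := by
  obtain ⟨s, hs, hsz⟩ := h
  refine ⟨s, hs, ?_⟩
  rw [← isIntegral_algebraMap_iff (algebraMap F L).injective (R := Λ) (B := L)]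
  have : algebraMap F L (s • z) = s • algebraMap F L z := by
    rw [Algebra.smul_def, Algebra.smul_def, map_mul, ← IsScalarTower.algebraMap_apply]
  rw [this]
  exact hsz

/-- The Galois group permutes the valuation subrings over `Λ_(w)`. -/
theorem comap_mem_overSet {w : Λ} {W : ValuationSubring L} (hW : W ∈ overSet w L)
    (σ : L ≃ₐ[F] L) : W.comap ((σ : L ≃+* L) : L →+* L) ∈ overSet w L := by
  have hσ : ∀ a : Λ, ((σ : L ≃+* L) : L →+* L) (algebraMap Λ L a) = algebraMap Λ L a := by
    intro a
    rw [IsScalarTower.algebraMap_apply Λ F L]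
    exact σ.commutes _
  refine ⟨fun a => ?_, fun a ha => ?_, ?_⟩
  · rw [ValuationSubring.mem_comap, hσ]
    exact hW.1 a
  · rw [ValuationSubring.mem_comap, map_inv₀, hσ]
    exact hW.2.1 a ha
  · rw [mem_nonunits_comap_iff, hσ]
    exact hW.2.2

/-- **A totally split Galois cover is étale at `w`.** -/
theorem etaleAt_of_split (hinj : Function.Injective (algebraMap Λ L)) {w : Λ} (hw : Prime w)
    (hfin : (overSet w L).Finite)
    (hunif : ∀ W ∈ overSet w L, ∀ a ∈ W.nonunits, ∃ b ∈ W, a = algebraMap Λ L w * b)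
    (Rep : Set (ValuationSubring L)) (hRep : Rep ⊆ overSet w L) (hne : Rep.Nonempty)
    (hex : ∀ W ∈ overSet w L, ∃ σ : L ≃ₐ[F] L, W.comap ((σ : L ≃+* L) : L →+* L) ∈ Rep)
    (huniq : ∀ W ∈ overSet w L, ∀ σ τ : L ≃ₐ[F] L,
      W.comap ((σ : L ≃+* L) : L →+* L) ∈ Rep →
      W.comap ((τ : L ≃+* L) : L →+* L) ∈ Rep → σ = τ) :
    EtaleAt w F L := by
  have hw0 : algebraMap Λ L w ≠ 0 := fun h0 => hw.ne_zero (hinj (by rw [h0, map_zero]))
  have hdisc : ∀ W ∈ overSet w L, IsDiscW (algebraMap Λ L w) W := fun W hW =>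
    ⟨hW.2.2, hunif W hW, exists_pow_mul_mem_of_over hinj hw W hW.1 hW.2.1⟩
  obtain ⟨c, hc, hd⟩ := exists_basis_of_split (F := F) (algebraMap Λ L w) hw0 (overSet w L) hfin
    hdisc (fun W hW σ => comap_mem_overSet hW σ) Rep hRep hne hex huniq
  refine ⟨c, fun j => locInt_of_forall_mem hinj hw (hc j), ?_⟩
  apply locInt_of_algebraMap (L := L)
  rw [map_inv₀]
  exact locInt_of_forall_mem hinj hw hd

end Etale

end Fermat.Agent.Ribet.H733
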