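import Fermat.Agent.Ribet.H733.WLeaves
import Fermat.Agent.Ribet.H883.WildHub

/-!
# RIBET wall at `p`, (S2) / W-ALGP, route G-p WITHOUT PURITY (helper733)

`algG_wild_of_sheets` : the wild hub `H883.algG_core_wild` with the leaves RED, CONST, COUNT
discharged by `leaves_of_sheets`.  What remains of route G-p:

* SHEETS-W : `SheetsConclusion L w x` for the wild Kummer covers (`H912.IsKummerCover … Sp`);
* COVER-W  : the cover itself (`H912.coverWild`, on main).

Statement: base data of `A2.H12.SSCtx` (semistable charts + separating coordinates),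
`τ` with `τ x = x`, `τ ≡ id` modulo the sheets (`hτV`), `ζ ∈ R` a primitive `m`-th root of unity
with `τ ζ = ζ ^ c`, `m > 0` ARBITRARY.  Then for every `g ≠ 0` which has a cover in the class
`IsKummerCover … Sp` to which `τ` lifts and which contains an `m`-th root of `g`:
`τ g = z ^ m * g ^ c`.
-/

set_option autoImplicit false
set_option linter.unusedSectionVars false
set_option linter.style.haveILetI false
set_option maxHeartbeats 1600000
set_option synthInstance.maxHeartbeats 400000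

namespace Fermat.Agent.Ribet.H733

open Polynomial
open Fermat.Agent.A2 Fermat.Agent.A2.H12 Fermat.Agent.A2.H733

section Hub

variable {R E F : Type} [CommRing R] [IsDomain R] [IsDiscreteValuationRing R]
  [HenselianLocalRing R] [IsAlgClosed (IsLocalRing.ResidueField R)]
  [Field E] [CharZero E] [Algebra R E] [IsFractionRing R E]
  [Field F] [Algebra E F] [Algebra R F] [IsScalarTower R E F]

/-- **Route G-p, ALG assembly without purity.** -/
theorem algG_wild_of_sheets (w : R) (hw : Irreducible w) (m : ℕ) (hm0 : 0 < m) (x : F)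
    (hx : Transcendental E x) (hfin : FiniteDimensional (IntermediateField.adjoin E ({x} : Set F)) F)
    (Bf Bi : Subalgebra R F)
    (hBf : ∀ f : F, f ∈ Bf ↔ IsIntegral (Algebra.adjoin R ({x} : Set F)) f)
    (hBi : ∀ f : F, f ∈ Bi ↔ IsIntegral (Algebra.adjoin R ({x⁻¹} : Set F)) f)
    (cf : SSChart w Bf) (ci : SSChart w Bi) (sf : SepCoord R E x Bf) (si : SepCoord R E x⁻¹ Bi)
    (τ : F ≃+* F) (τR : R ≃+* R) (c : ℕ)
    (hroot : ∃ ζ : R, IsPrimitiveRoot ζ m ∧ τR ζ = ζ ^ c)
    (hτx : τ x = x) (hτR : ∀ r, τ (algebraMap R F r) = algebraMap R F (τR r))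
    (hτV : ∀ V : ValuationSubring F, IsSheet w x V → ∀ c : F,
      (c ∈ V ↔ τ c ∈ V) ∧ (c ∈ V → τ c - c ∈ V.nonunits))
    (Sp : ValuationSubring F → F → Prop)
    (hSheets : ∀ (L : Type) [Field L] [Algebra F L] [Algebra R L] [IsScalarTower R F L],
      Fermat.Agent.Ribet.H912.IsKummerCover (R := R) L w x m Sp → SheetsConclusion L w x)
    (g : F) (hg : g ≠ 0)
    (hCover : ∃ (L : Type) (_ : Field L) (_ : Algebra F L) (_ : Algebra R L)
      (_ : IsScalarTower R F L),
      Fermat.Agent.Ribet.H912.IsKummerCover (R := R) L w x m Sp ∧ ∃ (τ' : L ≃+* L) (y : L),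
        (∀ f : F, τ' (algebraMap F L f) = algebraMap F L (τ f)) ∧ y ^ m = algebraMap F L g) :
    ∃ z : F, τ g = z ^ m * g ^ c := by
  obtain ⟨L, _, _, _, _, hKS, τ₀, y, hτ₀, hy⟩ := hCover
  haveI := hKS.finite
  haveI := hKS.galois
  have S1 := hSheets L hKS
  obtain ⟨hRed, hConst, hCount⟩ := leaves_of_sheets w hw m hm0 x hx hfin Bf Bi hBf hBi cf ci
    sf si L Sp hKS S1
  have hinjRE : Function.Injective (algebraMap R E) := IsFractionRing.injective R E
  have hinj : Function.Injective (algebraMap R F) := by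
    rw [IsScalarTower.algebraMap_eq R E F]
    exact (algebraMap E F).injective.comp hinjRE
  haveI : CharZero F := charZero_of_injective_algebraMap (algebraMap E F).injective
  have hxR : Transcendental R x := hx.restrictScalars hinjRE
  have hwp : Prime w := hw.prime
  have hdvd : ∀ r : R, w ∣ r ↔ ¬ IsUnit r := by
    intro r
    rw [← Ideal.mem_span_singleton, ← hw.maximalIdeal_eq, IsLocalRing.mem_maximalIdeal,
      mem_nonunits_iff]
  have hτw : ∀ r, w ∣ r ↔ w ∣ τR r := by
    intro r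
    rw [hdvd, hdvd]
    exact not_congr (MulEquiv.isUnit_map (τR : R ≃* R)).symm
  have halg : ∀ f : F, IsAlgebraic (Algebra.adjoin R ({x} : Set F)) f :=
    Fermat.Agent.A2.H373.isAlgebraic_adjoin_of_finite (R := R) (E := E) x
  have hdisc : ∀ V : ValuationSubring F, IsSheet w x V → ∀ f : F, f ≠ 0 →
      ∃ (n : ℤ) (u : F), u ∈ V ∧ u⁻¹ ∈ V ∧ f = algebraMap R F w ^ n * u := fun V hV f hf =>
    Fermat.Agent.A2.H652.sheet_discrete w hwp hinj Bf hBf halg cf hV hf
  obtain ⟨V₀, -, hV₀, -⟩ := exists_base_sheets w hw x hx Bf hBf cf hdisc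
  obtain ⟨W₀, hW₀, -⟩ := S1.exists_over V₀ hV₀
  have hW₁ : IsSheet w (algebraMap F L x) (W₀.comap (τ₀.symm : L →+* L)) :=
    lift_isSheet w x τ τR hτx hτR hτw τ₀ hτ₀ hW₀
  have hcol : (W₀.comap (τ₀.symm : L →+* L)).comap (algebraMap F L) =
      W₀.comap (algebraMap F L) := by
    ext f
    have h2 := (hτV _ (IsSheet.comap_algebraMap hW₀) (τ.symm f)).1
    rw [RingEquiv.apply_symm_apply] at h2
    rw [ValuationSubring.mem_comap, ValuationSubring.mem_comap]
    change τ₀.symm (algebraMap F L f) ∈ W₀ ↔ _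
    rw [lift_symm_algebraMap τ τ₀ hτ₀, ← ValuationSubring.mem_comap, h2]
  obtain ⟨σ, hσ⟩ := S1.trans _ W₀ hW₁ hW₀ hcol
  refine Fermat.Agent.Ribet.H883.algG_core_wild (L := L) w x m τ τR hinj hxR hwp hm0 c hroot hτx
    hτR hτw hτV S1 hRed hConst hCount (τ₀.trans (σ : L ≃+* L)) ?_ W₀ hW₀ ?_ g hg y hy
  · intro f
    change σ (τ₀ (algebraMap F L f)) = _
    rw [hτ₀, σ.commutes]
  · intro b
    change b ∈ W₀ ↔ σ (τ₀ b) ∈ W₀
    rw [← hσ, ValuationSubring.mem_comap]
    change _ ↔ τ₀.symm (τ₀ b) ∈ W₀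
    rw [RingEquiv.symm_apply_apply]

end Hub

end Fermat.Agent.Ribet.H733
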