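import Fermat.Agent.Ribet.H733.WCount
import Fermat.Agent.Ribet.H912.CoverW
import Fermat.Agent.A2.H733.CountLeaf
import Fermat.Agent.A2.H652.RedLeaf
import Fermat.Agent.A2.H652.BaseSheets
import Fermat.Agent.A2.H552.ConstLeaf

/-!
# RIBET wall at `p`, route G-p (helper733): RED, CONST and COUNT for a Kummer cover of ARBITRARY
exponent follow from SHEETS alone — NO PURITY

`leaves_of_sheets` : base data of `A2.H12.SSCtx` (semistable charts `Bf`, `Bi` with separating
coordinates), `L / F` a Kummer cover of exponent `m > 0` (`H912.IsKummerCover`, ANY split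
predicate `Sp`, e.g. the wild `SplitAtLam` with `m = p` the residue characteristic),
`SheetsConclusion L w x`  ⟹  `RedConclusion`, `ConstConclusion`, `CountConclusion`.

So the hub `Ribet/H883/WildHub.lean` (`algG_core_wild`) needs only SHEETS-W and COVER-W.

* RED   : `A2.H652.redConclusion_of_baseRed` (exponent-free);
* CONST : `A2.H552.constConclusion_of_sheet` (exponent-free);
* COUNT : `countAt_of_chart_gen` (`WCount.lean`): δ-count with étaleness at the vertical prime
  from total splitting (`etaleAt_of_sheetsConclusion`) instead of Kummer theory.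
-/

set_option autoImplicit false
set_option linter.unusedSectionVars false
set_option linter.style.haveILetI false
set_option maxHeartbeats 1600000
set_option synthInstance.maxHeartbeats 400000

namespace Fermat.Agent.Ribet.H733

open Polynomial
open Fermat.Agent.A2 Fermat.Agent.A2.H12 Fermat.Agent.A2.H733
open Fermat.Agent.S18.H138 (chart mem_chart)

section Leaves

variable {R E F : Type} [CommRing R] [IsDomain R] [IsDiscreteValuationRing R]
  [Field E] [CharZero E] [Algebra R E] [IsFractionRing R E]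
  [Field F] [Algebra E F] [Algebra R F] [IsScalarTower R E F]

/-- **COUNT for a Kummer cover of arbitrary exponent**, from SHEETS and RED. -/
theorem countConclusion_gen (w : R) (hw : Irreducible w) (m : ℕ) (hm0 : 0 < m) (x : F)
    (hx : Transcendental E x) (hfin : FiniteDimensional (IntermediateField.adjoin E ({x} : Set F)) F)
    (Bf Bi : Subalgebra R F)
    (hBf : ∀ f : F, f ∈ Bf ↔ IsIntegral (Algebra.adjoin R ({x} : Set F)) f)
    (hBi : ∀ f : F, f ∈ Bi ↔ IsIntegral (Algebra.adjoin R ({x⁻¹} : Set F)) f)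
    (cf : SSChart w Bf) (ci : SSChart w Bi) (sf : SepCoord R E x Bf) (si : SepCoord R E x⁻¹ Bi)
    (hdisc : ∀ V : ValuationSubring F, IsSheet w x V → ∀ f : F, f ≠ 0 →
      ∃ (n : ℤ) (u : F), u ∈ V ∧ u⁻¹ ∈ V ∧ f = algebraMap R F w ^ n * u)
    (L : Type) [Field L] [Algebra F L] [Algebra R L] [IsScalarTower R F L]
    [FiniteDimensional F L] [IsGalois F L]
    (hgen : ∃ (n : ℕ) (y : Fin n → L) (g : Fin n → F),
      (∀ i, g i ≠ 0) ∧ (∀ i, y i ^ m = algebraMap F L (g i)) ∧
      IntermediateField.adjoin F (Set.range y) = ⊤ ∧ ∀ i, HorDiv R m (g i))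
    (hS : SheetsConclusion L w x) (hRed : RedConclusion L w x) :
    CountConclusion L w x := by
  have hx0 : x ≠ 0 := by
    rintro rfl
    exact hx (isAlgebraic_zero)
  have hxL0 : algebraMap F L x ≠ 0 := (map_ne_zero (algebraMap F L)).2 hx0
  refine ⟨?_, ?_⟩
  · exact countAt_of_chart_gen w hw m hm0 x hx Bf hBf cf sf hdisc L hgen hS (hRed _ (Or.inl rfl))
  · -- the chart at infinity
    have hti : Transcendental E x⁻¹ := by
      intro h
      apply hx
      have := h.inv
      rwa [inv_inv] at this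
    haveI hfi : FiniteDimensional (IntermediateField.adjoin E ({x⁻¹} : Set F)) F := by
      rw [adjoin_inv_eq_adjoin]
      exact hfin
    have hinvL : algebraMap F L x⁻¹ = (algebraMap F L x)⁻¹ := map_inv₀ _ _
    have hiff : ∀ W : ValuationSubring L,
        IsSheet w (algebraMap F L x⁻¹) W ↔ IsSheet w (algebraMap F L x) W := by
      intro W
      rw [hinvL]
      exact isSheet_inv_iff w hxL0 W
    have hSi : SheetsConclusion L w x⁻¹ := by
      refine ⟨?_, ?_, ?_, ?_, ?_, ?_⟩
      · refine hS.finite.subset ?_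
        intro W hW
        exact (hiff W).1 hW
      · intro V hV
        obtain ⟨W, hW, hWV⟩ := hS.exists_over V ((isSheet_inv_iff w hx0 V).1 hV)
        exact ⟨W, (hiff W).2 hW, hWV⟩
      · intro W hW
        exact hS.unif W ((hiff W).1 hW)
      · intro W hW
        exact hS.resdeg W ((hiff W).1 hW)
      · intro W W' hW hW'
        exact hS.trans W W' ((hiff W).1 hW) ((hiff W').1 hW')
      · intro W hW
        exact hS.free W ((hiff W).1 hW)
    have hredi : ∀ b ∈ chart R ({algebraMap F L x⁻¹} : Set L),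
        (∀ W : ValuationSubring L, IsSheet w (algebraMap F L x⁻¹) W → b ∈ W.nonunits) →
        ∃ b₁ ∈ chart R ({algebraMap F L x⁻¹} : Set L), b = algebraMap R L w * b₁ := by
      intro b hb hall
      rw [hinvL] at hb ⊢
      exact hRed _ (Or.inr (Or.inl rfl)) b hb (fun W hW => hall W ((hiff W).2 hW))
    have hcount := countAt_of_chart_gen w hw m hm0 x⁻¹ hti Bi hBi ci si
      (fun V hV => hdisc V ((isSheet_inv_iff w hx0 V).1 hV)) L hgen hSi hredi
    rw [hinvL] at hcount
    intro 𝔫 h𝔫 W W' hW hW' hcomap h1 h2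
    exact hcount 𝔫 h𝔫 W W' ((hiff W).2 hW) ((hiff W').2 hW') hcomap h1 h2

variable [HenselianLocalRing R] [IsAlgClosed (IsLocalRing.ResidueField R)]

/-- **RED, CONST and COUNT from SHEETS**, for a Kummer cover of arbitrary exponent `m > 0` and
any split predicate `Sp`.  No purity, no hypothesis relating `m` to the residue characteristic. -/
theorem leaves_of_sheets (w : R) (hw : Irreducible w) (m : ℕ) (hm0 : 0 < m) (x : F)
    (hx : Transcendental E x) (hfin : FiniteDimensional (IntermediateField.adjoin E ({x} : Set F)) F)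
    (Bf Bi : Subalgebra R F)
    (hBf : ∀ f : F, f ∈ Bf ↔ IsIntegral (Algebra.adjoin R ({x} : Set F)) f)
    (hBi : ∀ f : F, f ∈ Bi ↔ IsIntegral (Algebra.adjoin R ({x⁻¹} : Set F)) f)
    (cf : SSChart w Bf) (ci : SSChart w Bi) (sf : SepCoord R E x Bf) (si : SepCoord R E x⁻¹ Bi)
    (L : Type) [Field L] [Algebra F L] [Algebra R L] [IsScalarTower R F L]
    (Sp : ValuationSubring F → F → Prop)
    (hK : Fermat.Agent.Ribet.H912.IsKummerCover (R := R) L w x m Sp)
    (hS : SheetsConclusion L w x) :
    RedConclusion L w x ∧ ConstConclusion (R := R) L x ∧ CountConclusion L w x := by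
  haveI := hK.finite
  haveI := hK.galois
  have hinjRE : Function.Injective (algebraMap R E) := IsFractionRing.injective R E
  have hinj : Function.Injective (algebraMap R F) := by
    rw [IsScalarTower.algebraMap_eq R E F]
    exact (algebraMap E F).injective.comp hinjRE
  have hxR : Transcendental R x := hx.restrictScalars hinjRE
  have hwp : Prime w := hw.prime
  have hW0 : algebraMap R F w ≠ 0 := fun h0 => hw.ne_zero (hinj (by rw [h0, map_zero]))
  have halg : ∀ f : F, IsAlgebraic (Algebra.adjoin R ({x} : Set F)) f :=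
    Fermat.Agent.A2.H373.isAlgebraic_adjoin_of_finite (R := R) (E := E) x
  have hdisc : ∀ V : ValuationSubring F, IsSheet w x V → ∀ f : F, f ≠ 0 →
      ∃ (n : ℤ) (u : F), u ∈ V ∧ u⁻¹ ∈ V ∧ f = algebraMap R F w ^ n * u := fun V hV f hf =>
    Fermat.Agent.A2.H652.sheet_discrete w hwp hinj Bf hBf halg cf hV hf
  have hRed : RedConclusion L w x :=
    Fermat.Agent.A2.H652.redConclusion_of_baseRed w x hW0 hS
      (Fermat.Agent.A2.H652.baseRed_of_ssChart w hwp hxR Bf Bi hBf hBi cf ci)
  obtain ⟨V₁, -, hS₁, -⟩ := exists_base_sheets w hw x hx Bf hBf cf hdisc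
  obtain ⟨W₁, hW₁, -⟩ := hS.exists_over V₁ hS₁
  have hConst : ConstConclusion (R := R) L x :=
    Fermat.Agent.A2.H552.constConclusion_of_sheet (E := E) w hw x hfin L W₁ hW₁ (hS.unif W₁ hW₁)
  obtain ⟨n, y, g, h1, h2, h3, h4, -⟩ := hK.gen
  exact ⟨hRed, hConst, countConclusion_gen w hw m hm0 x hx hfin Bf Bi hBf hBi cf ci sf si hdisc L
    ⟨n, y, g, h1, h2, h3, h4⟩ hS hRed⟩

/-- The same in the language of `A2.H12.SSCtx` (the exponent `m₀` of the context is a dummy,
unrelated to the exponent `m` of the cover). -/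
theorem leaves_of_sheets_ctx (w : R) (q m₀ : ℕ) (x : F) (Bf Bi : Subalgebra R F)
    (τ : F ≃+* F) (τE : E ≃+* E) (τR : R ≃+* R) (ctx : SSCtx w q m₀ x Bf Bi τ τE τR)
    (m : ℕ) (hm0 : 0 < m)
    (L : Type) [Field L] [Algebra F L] [Algebra R L] [IsScalarTower R F L]
    (Sp : ValuationSubring F → F → Prop)
    (hK : Fermat.Agent.Ribet.H912.IsKummerCover (R := R) L w x m Sp)
    (hS : SheetsConclusion L w x) :
    RedConclusion L w x ∧ ConstConclusion (R := R) L x ∧ CountConclusion L w x := by
  obtain ⟨cf⟩ := ctx.cf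
  obtain ⟨ci⟩ := ctx.ci
  exact leaves_of_sheets w ctx.irr m hm0 x ctx.transc ctx.fin Bf Bi ctx.hBf ctx.hBi cf ci
    ctx.sf ctx.si L Sp hK hS

end Leaves

end Fermat.Agent.Ribet.H733
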