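import Fermat.Agent.Ribet.H733.WEtale
import Fermat.Agent.A2.H733.CountChart
import Fermat.Agent.A2.A3.H492.ChartRing
import Fermat.Agent.S18.H138.ChartsConst

/-!
# RIBET wall at `p`, route G-p, leaf COUNT-W by discriminants (helper733), part 4:
`SheetsConclusion` ⇒ the cover is étale at the vertical prime `w` of `R[t]`

`Λ = R[t] ⊆ F`, `L / F` finite Galois.

* `mem_overSet_iff_isSheet` : the valuation subrings of `L` over `Λ_(w)` are the sheets of `L`;
* `etaleAt_of_sheetsConclusion` : `H12.SheetsConclusion L w t` (total splitting of the Gauss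
  valuations) ⇒ `H492.EtaleAt w F L`.  NO hypothesis on the residue characteristic and NO
  Kummer hypothesis.
-/

set_option autoImplicit false
set_option linter.unusedSectionVars false
set_option linter.style.haveILetI false

namespace Fermat.Agent.Ribet.H733

open Polynomial Module
open Fermat.Agent.A2.H12 Fermat.Agent.A2.A3.H492
open Fermat.Agent.S18.H138 (chart mem_chart)

section Sheets

variable {R F L : Type} [CommRing R] [IsDomain R] [Field F] [Algebra R F]
  [Field L] [Algebra F L] [Algebra R L] [IsScalarTower R F L]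

/-- The valuation subrings of `L` over `Λ_(w)`, `Λ = R[t]`, are the sheets of `L`. -/
theorem mem_overSet_iff_isSheet {t : F} (hxR : Transcendental R t) (w : R)
    (W : ValuationSubring L) :
    W ∈ overSet (algebraMap R (Algebra.adjoin R ({t} : Set F)) w) L ↔
      IsSheet w (algebraMap F L t) W := by
  have hΛ : ∀ a : Algebra.adjoin R ({t} : Set F), ∃ P : R[X], adjoinEquiv hxR P = a :=
    (adjoinEquiv hxR).surjective
  have hcoe : ∀ P : R[X], algebraMap (Algebra.adjoin R ({t} : Set F)) L (adjoinEquiv hxR P) =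
      aeval (algebraMap F L t) P := by
    intro P
    show algebraMap F L ((adjoinEquiv hxR P : Algebra.adjoin R ({t} : Set F)) : F) = _
    rw [coe_adjoinEquiv, ← aeval_algebraMap_apply]
  have hw' : algebraMap (Algebra.adjoin R ({t} : Set F)) L
      (algebraMap R (Algebra.adjoin R ({t} : Set F)) w) = algebraMap R L w := by
    show algebraMap F L (algebraMap R F w) = _
    rw [← IsScalarTower.algebraMap_apply]
  constructor
  · rintro ⟨h1, h2, h3⟩
    refine ⟨fun r => ?_, ?_, ?_, fun P hP => ?_⟩
    · have := h1 (algebraMap R (Algebra.adjoin R ({t} : Set F)) r)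
      have e : algebraMap (Algebra.adjoin R ({t} : Set F)) L
          (algebraMap R (Algebra.adjoin R ({t} : Set F)) r) = algebraMap R L r := by
        show algebraMap F L (algebraMap R F r) = _
        rw [← IsScalarTower.algebraMap_apply]
      rwa [e] at this
    · exact h1 ⟨t, Algebra.subset_adjoin rfl⟩
    · rwa [hw'] at h3
    · have := h2 (adjoinEquiv hxR P) (not_dvd_aeval_of_coeff hxR w P hP)
      rwa [hcoe] at this
  · intro hW
    refine ⟨fun a => ?_, fun a ha => ?_, ?_⟩
    · exact Fermat.Agent.A2.H733.chart_le_sheet hW _ (Fermat.Agent.A2.H733.coverMap L t a).2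
    · obtain ⟨P, rfl⟩ := hΛ a
      rw [hcoe]
      refine hW.2.2.2 P ?_
      by_contra hcon
      rw [not_exists] at hcon
      exact ha ((algebraMap_dvd_adjoinEquiv_iff hxR w P).2 fun i => not_not.1 (hcon i))
    · rw [hw']
      exact hW.2.2.1

variable [FiniteDimensional F L] [IsGalois F L]

/-- **Total splitting ⇒ étale at `w`.** -/
theorem etaleAt_of_sheetsConclusion [IsNoetherianRing R] {t : F} (hxR : Transcendental R t)
    {w : R} (hw : Prime w)
    [Algebra.IsAlgebraic (Algebra.adjoin R ({t} : Set F)) L]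
    (hS : SheetsConclusion L w t) (hne : ∃ W : ValuationSubring L, IsSheet w (algebraMap F L t) W) :
    EtaleAt (algebraMap R (Algebra.adjoin R ({t} : Set F)) w) F L := by
  classical
  haveI : IsNoetherianRing (Algebra.adjoin R ({t} : Set F)) :=
    Fermat.Agent.S18.H138.isNoetherianRing_adjoin_singleton hxR
  have hinjΛ : Function.Injective (algebraMap (Algebra.adjoin R ({t} : Set F)) L) := by
    intro a b hab
    have : algebraMap F L (a : F) = algebraMap F L (b : F) := hab
    exact Subtype.ext ((algebraMap F L).injective this)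
  have hwΛ : Prime (algebraMap R (Algebra.adjoin R ({t} : Set F)) w) :=
    prime_algebraMap_adjoin hxR hw
  have hiff := fun W => mem_overSet_iff_isSheet (L := L) hxR w W
  have hw' : algebraMap (Algebra.adjoin R ({t} : Set F)) L
      (algebraMap R (Algebra.adjoin R ({t} : Set F)) w) = algebraMap R L w := by
    show algebraMap F L (algebraMap R F w) = _
    rw [← IsScalarTower.algebraMap_apply]
  -- a choice of one sheet over each sheet of `F`
  have hch : ∀ V : ValuationSubring F, ∃ W₀ : ValuationSubring L,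
      (∃ W : ValuationSubring L, IsSheet w (algebraMap F L t) W ∧
        W.comap (algebraMap F L) = V) →
      IsSheet w (algebraMap F L t) W₀ ∧ W₀.comap (algebraMap F L) = V := by
    intro V
    by_cases h : ∃ W : ValuationSubring L, IsSheet w (algebraMap F L t) W ∧
        W.comap (algebraMap F L) = V
    · obtain ⟨W, hW⟩ := h
      exact ⟨W, fun _ => hW⟩
    · exact ⟨⊤, fun h' => absurd h' h⟩
  choose f hf using hch
  let Rep : Set (ValuationSubring L) :=
    {W | IsSheet w (algebraMap F L t) W ∧ W = f (W.comap (algebraMap F L))}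
  have hcomap : ∀ (W : ValuationSubring L) (σ : L ≃ₐ[F] L),
      (W.comap ((σ : L ≃+* L) : L →+* L)).comap (algebraMap F L) = W.comap (algebraMap F L) := by
    intro W σ
    ext z
    rw [ValuationSubring.mem_comap, ValuationSubring.mem_comap, ValuationSubring.mem_comap]
    have : ((σ : L ≃+* L) : L →+* L) (algebraMap F L z) = algebraMap F L z := σ.commutes z
    rw [this]
  refine etaleAt_of_split hinjΛ hwΛ ?_ ?_ Rep ?_ ?_ ?_ ?_
  · -- finiteness
    refine hS.finite.subset fun W hW => ?_
    exact (hiff W).1 hW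
  · -- uniformiser
    intro W hW a ha
    obtain ⟨b, hb, hab⟩ := hS.unif W ((hiff W).1 hW) a ha
    exact ⟨b, hb, by rw [hw']; exact hab⟩
  · rintro W ⟨hW, -⟩
    exact (hiff W).2 hW
  · obtain ⟨W, hW⟩ := hne
    obtain ⟨h1, h2⟩ := hf (W.comap (algebraMap F L)) ⟨W, hW, rfl⟩
    exact ⟨f (W.comap (algebraMap F L)), h1, by rw [h2]⟩
  · -- existence of a translate in `Rep`
    intro W hW
    have hWs := (hiff W).1 hW
    obtain ⟨h1, h2⟩ := hf (W.comap (algebraMap F L)) ⟨W, hWs, rfl⟩
    obtain ⟨σ, hσ⟩ := hS.trans W _ hWs h1 h2.symm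
    refine ⟨σ⁻¹, ?_⟩
    have hEq : W.comap (((σ⁻¹ : L ≃ₐ[F] L) : L ≃+* L) : L →+* L) =
        f (W.comap (algebraMap F L)) := by
      ext b
      rw [ValuationSubring.mem_comap, hσ]
      have : σ ((((σ⁻¹ : L ≃ₐ[F] L) : L ≃+* L) : L →+* L) b) = b := by
        show σ (σ⁻¹ b) = b
        rw [← AlgEquiv.mul_apply, mul_inv_cancel, AlgEquiv.one_apply]
      rw [this]
    rw [hEq]
    exact ⟨h1, by rw [h2]⟩
  · -- uniqueness
    intro W hW σ τ hσ hτ
    have hWs := (hiff W).1 hW
    have h1 : W.comap ((σ : L ≃+* L) : L →+* L) = W.comap ((τ : L ≃+* L) : L →+* L) := by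
      rw [hσ.2, hτ.2, hcomap, hcomap]
    have h2 : ∀ b : L, b ∈ W ↔ (τ * σ⁻¹) b ∈ W := by
      intro b
      have h3 := congrArg (fun A : ValuationSubring L => σ⁻¹ b ∈ A) h1
      simp only [ValuationSubring.mem_comap, eq_iff_iff] at h3
      have h4 : ((σ : L ≃+* L) : L →+* L) (σ⁻¹ b) = b := by
        show σ (σ⁻¹ b) = b
        rw [← AlgEquiv.mul_apply, mul_inv_cancel, AlgEquiv.one_apply]
      rw [h4] at h3
      rw [h3]
      rfl
    have h5 := hS.free W hWs (τ * σ⁻¹) h2
    have : τ = σ := by
      have := congrArg (fun ρ : L ≃ₐ[F] L => ρ * σ) h5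
      simpa using this
    exact this.symm

end Sheets

end Fermat.Agent.Ribet.H733
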