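import Fermat.Agent.Ribet.H733.WApprox
import Mathlib.RingTheory.Discriminant
import Mathlib.FieldTheory.Galois.Basic
import Mathlib.RingTheory.Trace.Basic

/-!
# RIBET wall at `p`, route G-p, leaf COUNT-W by discriminants (helper733), part 2:
a totally split Galois extension has a basis with unit discriminant

`L / F` finite Galois with group `G`, `Sh` a finite `G`-stable set of discrete valuation subrings
of `L` with a common uniformiser `ϖ`, `Rep ⊆ Sh` a set of representatives on which `G` acts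
simply transitively (every `W ∈ Sh` has exactly one `σ` with `σ⁻¹ W ∈ Rep`): i.e. the primes in
`Sh` are totally split over `F`.

* `exists_basis_of_split` : there is an `F`-basis `c` of `L` with `c j ∈ W` for all `W ∈ Sh` and
  `(discr F c)⁻¹ ∈ W` for all `W ∈ Sh`.

Proof: `e ≡ 1` at `Rep`, `e ≡ 0` at `Sh \ Rep` (weak approximation), `c σ = σ e`; the trace matrix
is `Mᵀ M` with `M τ σ = τ (σ e)`, and `M` is a permutation matrix modulo every `𝔪_W`.

Mathlib only.  NO hypothesis on the residue characteristic.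
-/

set_option autoImplicit false
set_option linter.unusedSectionVars false

namespace Fermat.Agent.Ribet.H733

open Module

section Comap

variable {L : Type*} [Field L]

theorem mem_nonunits_comap_iff (W : ValuationSubring L) (f : L →+* L) (x : L) :
    x ∈ (W.comap f).nonunits ↔ f x ∈ W.nonunits := by
  rw [ValuationSubring.mem_nonunits_iff_or, ValuationSubring.mem_nonunits_iff_or,
    ValuationSubring.mem_comap, map_inv₀, map_eq_zero]

end Comap

section Trace

variable {F L : Type*} [Field F] [Field L] [Algebra F L] [FiniteDimensional F L] [IsGalois F L]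

/-- The discriminant of a Galois orbit is the square of the determinant of the matrix of
conjugates. -/
theorem algebraMap_discr_conj [DecidableEq (L ≃ₐ[F] L)] (e : L) :
    algebraMap F L (Algebra.discr F (fun σ : L ≃ₐ[F] L => σ e)) =
      (Matrix.of fun τ σ : L ≃ₐ[F] L => τ (σ e)).det ^ 2 := by
  rw [Algebra.discr_def, RingHom.map_det]
  have h : (algebraMap F L).mapMatrix (Algebra.traceMatrix F (fun σ : L ≃ₐ[F] L => σ e)) =
      (Matrix.of fun τ σ : L ≃ₐ[F] L => τ (σ e)).transpose *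
        (Matrix.of fun τ σ : L ≃ₐ[F] L => τ (σ e)) := by
    ext σ ρ
    rw [RingHom.mapMatrix_apply, Matrix.map_apply, Algebra.traceMatrix_apply,
      Algebra.traceForm_apply, trace_eq_sum_automorphisms, Matrix.mul_apply]
    refine Finset.sum_congr rfl fun τ _ => ?_
    rw [Matrix.transpose_apply, Matrix.of_apply, Matrix.of_apply, map_mul]
  rw [h, Matrix.det_mul, Matrix.det_transpose, sq]

end Trace

section Split

variable {F L : Type*} [Field F] [Field L] [Algebra F L] [FiniteDimensional F L] [IsGalois F L]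

/-- The determinant of a matrix over a valuation subring which is a permutation matrix modulo
the maximal ideal is a unit. -/
theorem det_inv_mem_of_perm {G : Type*} [Fintype G] [DecidableEq G] [Group G]
    (W : ValuationSubring L) (M : Matrix G G L) (ρ : G)
    (h1 : ∀ τ σ : G, τ * σ = ρ → M τ σ - 1 ∈ W.nonunits)
    (h0 : ∀ τ σ : G, τ * σ ≠ ρ → M τ σ ∈ W.nonunits) :
    M.det ≠ 0 ∧ M.det ∈ W ∧ M.det⁻¹ ∈ W := by
  have hmem : ∀ τ σ, M τ σ ∈ W := by
    intro τ σ
    by_cases h : τ * σ = ρ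
    · have := mem_of_nonunits W (h1 τ σ h)
      have h2 : M τ σ = (M τ σ - 1) + 1 := by ring
      rw [h2]
      exact W.add_mem _ _ this W.one_mem
    · exact mem_of_nonunits W (h0 τ σ h)
  let MW : Matrix G G W := Matrix.of fun τ σ => ⟨M τ σ, hmem τ σ⟩
  have hMW : W.subtype.mapMatrix MW = M := by
    ext τ σ
    rfl
  have hdet : M.det = ((MW.det : W) : L) := by
    rw [← hMW, ← RingHom.map_det]
    rfl
  -- permute the rows
  let π : Equiv.Perm G := (Equiv.inv G).trans (Equiv.mulLeft ρ)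
  have hπ : ∀ τ, π τ = ρ * τ⁻¹ := fun τ => rfl
  let q := Ideal.Quotient.mk (IsLocalRing.maximalIdeal W)
  have hq0 : ∀ (x : L) (hx : x ∈ W), x ∈ W.nonunits → q ⟨x, hx⟩ = 0 := by
    intro x hx hxn
    rw [Ideal.Quotient.eq_zero_iff_mem]
    obtain ⟨hx', h⟩ := ValuationSubring.mem_nonunits_iff_exists_mem_maximalIdeal.1 hxn
    exact h
  have hN : q.mapMatrix (MW.submatrix π id) = 1 := by
    ext τ σ
    rw [RingHom.mapMatrix_apply, Matrix.map_apply, Matrix.submatrix_apply, id, hπ,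
      Matrix.one_apply]
    by_cases h : τ = σ
    · subst h
      rw [if_pos rfl]
      have h2 : ρ * τ⁻¹ * τ = ρ := by group
      have h3 := h1 _ _ h2
      have h4 : M (ρ * τ⁻¹) τ - 1 ∈ W := mem_of_nonunits W h3
      have h5 := hq0 _ h4 h3
      have h6 : (⟨M (ρ * τ⁻¹) τ - 1, h4⟩ : W) = MW (ρ * τ⁻¹) τ - 1 := rfl
      rw [h6, map_sub, map_one, sub_eq_zero] at h5
      exact h5
    · rw [if_neg h]
      have h2 : ρ * τ⁻¹ * σ ≠ ρ := by
        intro h3
        apply h
        have : τ⁻¹ * σ = 1 := by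
          have h4 : ρ * (τ⁻¹ * σ) = ρ * 1 := by rw [← mul_assoc, h3, mul_one]
          exact mul_left_cancel h4
        exact (inv_mul_eq_one.1 this)
      exact hq0 _ (hmem _ _) (h0 _ _ h2)
  have hdet1 : q (Equiv.Perm.sign π * MW.det) = 1 := by
    rw [← Matrix.det_permute, RingHom.map_det, hN, Matrix.det_one]
  have hnm : MW.det ∉ IsLocalRing.maximalIdeal W := by
    intro hm
    have h2 : q MW.det = 0 := Ideal.Quotient.eq_zero_iff_mem.2 hm
    rw [map_mul, h2, mul_zero] at hdet1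
    have hnt : Nontrivial (W ⧸ IsLocalRing.maximalIdeal W) :=
      Ideal.Quotient.nontrivial_iff.2 (IsLocalRing.maximalIdeal.isMaximal W).ne_top
    exact zero_ne_one hdet1
  have hunit : IsUnit MW.det := by
    by_contra h
    exact hnm ((IsLocalRing.mem_maximalIdeal _).2 h)
  obtain ⟨v, hv⟩ := hunit.exists_right_inv
  have h2 : M.det * (v : L) = 1 := by
    rw [hdet]
    exact congrArg Subtype.val hv
  refine ⟨left_ne_zero_of_mul_eq_one h2, by rw [hdet]; exact (MW.det).2, ?_⟩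
  rw [(eq_inv_of_mul_eq_one_right h2).symm]
  exact v.2

/-- **A totally split Galois extension has a basis with unit discriminant.** -/
theorem exists_basis_of_split (ϖ : L) (hϖ0 : ϖ ≠ 0) (Sh : Set (ValuationSubring L))
    (hfin : Sh.Finite) (hdisc : ∀ W ∈ Sh, IsDiscW ϖ W)
    (hG : ∀ W ∈ Sh, ∀ σ : L ≃ₐ[F] L, W.comap ((σ : L ≃+* L) : L →+* L) ∈ Sh)
    (Rep : Set (ValuationSubring L)) (hRep : Rep ⊆ Sh) (hne : Rep.Nonempty)
    (hex : ∀ W ∈ Sh, ∃ σ : L ≃ₐ[F] L, W.comap ((σ : L ≃+* L) : L →+* L) ∈ Rep)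
    (huniq : ∀ W ∈ Sh, ∀ σ τ : L ≃ₐ[F] L, W.comap ((σ : L ≃+* L) : L →+* L) ∈ Rep →
      W.comap ((τ : L ≃+* L) : L →+* L) ∈ Rep → σ = τ) :
    ∃ c : Basis (Fin (finrank F L)) F L, (∀ j, ∀ W ∈ Sh, c j ∈ W) ∧
      ∀ W ∈ Sh, (algebraMap F L (Algebra.discr F c))⁻¹ ∈ W := by
  classical
  have hcard : Fintype.card (L ≃ₐ[F] L) = finrank F L := by
    rw [← Nat.card_eq_fintype_card]
    exact IsGalois.card_aut_eq_finrank F L
  -- the approximation
  obtain ⟨e, he1, he0⟩ := exists_delta hϖ0 hfin.toFinset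
    (fun W hW => hdisc W (hfin.mem_toFinset.1 hW)) (hfin.subset hRep).toFinset
    (fun W hW => hfin.mem_toFinset.2 (hRep ((hfin.subset hRep).mem_toFinset.1 hW)))
  have he1' : ∀ W ∈ Rep, e - 1 ∈ W.nonunits := fun W hW =>
    he1 W ((hfin.subset hRep).mem_toFinset.2 hW)
  have he0' : ∀ W ∈ Sh, W ∉ Rep → e ∈ W.nonunits := fun W hW hWR =>
    he0 W (hfin.mem_toFinset.2 hW) (fun h => hWR ((hfin.subset hRep).mem_toFinset.1 h))
  -- the matrix of conjugates
  let M : Matrix (L ≃ₐ[F] L) (L ≃ₐ[F] L) L := Matrix.of fun τ σ => τ (σ e)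
  have hM1 : ∀ W ∈ Sh, ∀ ρ : L ≃ₐ[F] L, W.comap ((ρ : L ≃+* L) : L →+* L) ∈ Rep →
      ∀ τ σ : L ≃ₐ[F] L, τ * σ = ρ → M τ σ - 1 ∈ W.nonunits := by
    intro W hW ρ hρ τ σ hτσ
    have h1 := he1' _ hρ
    rw [mem_nonunits_comap_iff] at h1
    have h2 : M τ σ - 1 = ((ρ : L ≃+* L) : L →+* L) (e - 1) := by
      rw [map_sub, map_one, ← hτσ]
      rfl
    rw [h2]
    exact h1
  have hM0 : ∀ W ∈ Sh, ∀ ρ : L ≃ₐ[F] L, W.comap ((ρ : L ≃+* L) : L →+* L) ∈ Rep →
      ∀ τ σ : L ≃ₐ[F] L, τ * σ ≠ ρ → M τ σ ∈ W.nonunits := by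
    intro W hW ρ hρ τ σ hτσ
    have h1 : W.comap (((τ * σ : L ≃ₐ[F] L) : L ≃+* L) : L →+* L) ∉ Rep := fun h =>
      hτσ (huniq W hW _ _ h hρ)
    have h2 := he0' _ (hG W hW (τ * σ)) h1
    rw [mem_nonunits_comap_iff] at h2
    exact h2
  have hdet : ∀ W ∈ Sh, M.det ≠ 0 ∧ M.det ∈ W ∧ M.det⁻¹ ∈ W := by
    intro W hW
    obtain ⟨ρ, hρ⟩ := hex W hW
    exact det_inv_mem_of_perm W M ρ (hM1 W hW ρ hρ) (hM0 W hW ρ hρ)
  obtain ⟨W₀, hW₀⟩ := hne
  have hdet0 : M.det ≠ 0 := (hdet W₀ (hRep hW₀)).1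
  -- the discriminant
  have hdiscr : algebraMap F L (Algebra.discr F (fun σ : L ≃ₐ[F] L => σ e)) = M.det ^ 2 :=
    algebraMap_discr_conj e
  have hd0 : Algebra.discr F (fun σ : L ≃ₐ[F] L => σ e) ≠ 0 := by
    intro h0
    rw [h0, map_zero] at hdiscr
    exact pow_ne_zero 2 hdet0 hdiscr.symm
  have hli : LinearIndependent F (fun σ : L ≃ₐ[F] L => σ e) := by
    by_contra hli
    exact hd0 (Algebra.discr_zero_of_not_linearIndependent F hli)
  let b₀ : Basis (L ≃ₐ[F] L) F L := basisOfLinearIndependentOfCardEqFinrank hli hcard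
  have hb₀ : ⇑b₀ = fun σ : L ≃ₐ[F] L => σ e := coe_basisOfLinearIndependentOfCardEqFinrank hli _
  let ε : (L ≃ₐ[F] L) ≃ Fin (finrank F L) := Fintype.equivFinOfCardEq hcard
  refine ⟨b₀.reindex ε, fun j W hW => ?_, fun W hW => ?_⟩
  · rw [Basis.reindex_apply, hb₀]
    have h1 := hG W hW (ε.symm j)
    have h4 : e ∈ W.comap (((ε.symm j : L ≃ₐ[F] L) : L ≃+* L) : L →+* L) := by
      by_cases h2 : W.comap (((ε.symm j : L ≃ₐ[F] L) : L ≃+* L) : L →+* L) ∈ Rep
      · have h3 := mem_of_nonunits _ (he1' _ h2)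
        have : e = (e - 1) + 1 := by ring
        rw [this]
        exact ValuationSubring.add_mem _ _ _ h3 (ValuationSubring.one_mem _)
      · exact mem_of_nonunits _ (he0' _ h1 h2)
    exact ValuationSubring.mem_comap.1 h4
  · have h1 : Algebra.discr F (b₀.reindex ε) = Algebra.discr F (fun σ : L ≃ₐ[F] L => σ e) := by
      rw [Basis.coe_reindex, Algebra.discr_reindex, hb₀]
    rw [h1, hdiscr, ← inv_pow]
    exact pow_mem (hdet W hW).2.2 2

end Split

end Fermat.Agent.Ribet.H733
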